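import Fermat.Agent.LT3.Theta.Jacobi
import Mathlib.Analysis.SpecialFunctions.Complex.CircleAddChar
import Mathlib.Analysis.Normed.Group.Tannery

/-!
# Binary theta series with congruences modulo `E`

`bin E φ` is the hexagonal theta series twisted by a function on `(ℤ/E)²`, `bind E ψ` the one of
the dual lattice.  Their laws under `Γ₀(E) ∩ Γ₁(3)` and under inversion are proved here.
-/

set_option autoImplicit false
open Complex Filter
open scoped Real ComplexConjugate Topology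

namespace Fermat.LT3

variable (E : ℕ) [NeZero E]

/-- The classes. -/
abbrev CP : Type := ZMod E × ZMod E

variable {E}

/-- The norm form on classes. -/
def cnorm (x : CP E) : ZMod E := qh x.1 x.2

/-- The dual norm form on classes. -/
def cdual (x : CP E) : ZMod E := qd x.1 x.2

/-- The pairing of a class with a dual class. -/
def cdot (x p : CP E) : ZMod E := x.1 * p.1 + x.2 * p.2

variable (E) in
/-- The standard character. -/
noncomputable def ee (a : ZMod E) : ℂ := ZMod.stdAddChar a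

/-- The standard character is multiplicative. -/
lemma ee_add (a b : ZMod E) : ee E (a + b) = ee E a * ee E b := AddChar.map_add_eq_mul _ a b

/-- The standard character is `1` at `0`. -/
lemma ee_zero : ee E (0 : ZMod E) = 1 := AddChar.map_zero_eq_one _

/-- The standard character at an integer `j` is `e (j / E)`. -/
lemma ee_int (j : ℤ) : ee E (j : ZMod E) = cexp (2 * π * I * ((j : ℂ) / E)) := by
  rw [ee, ZMod.stdAddChar_coe]; congr 1; ring

variable (E) in
/-- Reduction of an integer pair modulo `E`. -/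
def redv (γ : ℤ × ℤ) : CP E := ((γ.1 : ZMod E), (γ.2 : ZMod E))

/-- The least nonnegative representative of a pair modulo `E`. -/
def liftv (x : CP E) : ℤ × ℤ := ((x.1.val : ℤ), (x.2.val : ℤ))

/-- The representative of a class reduces to it. -/
lemma redv_liftv (x : CP E) : redv E (liftv x) = x := by simp [redv, liftv]

omit [NeZero E] in
/-- Reduction ignores multiples of `E`. -/
lemma redv_add_mul (x γ : ℤ × ℤ) :
    redv E (x + ((E : ℤ) * γ.1, (E : ℤ) * γ.2)) = redv E x := by simp [redv]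

/-- A lattice vector is the representative of its class plus a multiple of `E`. -/
lemma exists_liftv (γ : ℤ × ℤ) :
    ∃ μ : ℤ × ℤ, γ = liftv (redv E γ) + ((E : ℤ) * μ.1, (E : ℤ) * μ.2) := by
  have h : ∀ a : ℤ, ∃ m : ℤ, a = ((a : ZMod E).val : ℤ) + E * m := fun a =>
    ⟨a / E, by rw [ZMod.val_intCast, Int.emod_add_mul_ediv]⟩
  obtain ⟨m, hm⟩ := h γ.1
  obtain ⟨n, hn⟩ := h γ.2
  exact ⟨(m, n), Prod.ext hm hn⟩

omit [NeZero E] in
/-- The lattice point of a representative plus a multiple of `E`. -/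
lemma emb_liftv_add (x : CP E) (μ : ℤ × ℤ) :
    emb (liftv x + ((E : ℤ) * μ.1, (E : ℤ) * μ.2)) = emb (liftv x) + (E : ℂ) * emb μ := by
  simp [emb]; ring

omit [NeZero E] in
/-- The dual lattice point of a representative plus a multiple of `E`. -/
lemma demb_liftv_add (x : CP E) (μ : ℤ × ℤ) :
    demb (liftv x + ((E : ℤ) * μ.1, (E : ℤ) * μ.2)) = demb (liftv x) + (E : ℂ) * demb μ := by
  apply Complex.ext
  · simp [demb]; ring
  · simp [demb]; ring

variable (E) in
/-- The splitting of `ℤ²` into classes. -/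
noncomputable def splitEquiv : CP E × (ℤ × ℤ) ≃ ℤ × ℤ :=
  Equiv.ofBijective (fun p => liftv p.1 + ((E : ℤ) * p.2.1, (E : ℤ) * p.2.2))
    ⟨fun p q h => by
      have h1 : p.1 = q.1 := by
        have := congrArg (redv E) h
        rwa [redv_add_mul, redv_add_mul, redv_liftv, redv_liftv] at this
      simp only [h1, add_right_inj, Prod.mk.injEq] at h
      have hE : (E : ℤ) ≠ 0 := by exact_mod_cast NeZero.ne E
      exact Prod.ext h1 (Prod.ext (mul_left_cancel₀ hE h.1) (mul_left_cancel₀ hE h.2)),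
    fun γ => by
      obtain ⟨μ, hμ⟩ := exists_liftv (E := E) γ
      exact ⟨(redv E γ, μ), hμ.symm⟩⟩

/-- A convergent sum over `ℤ²` splits into the classes modulo `E`. -/
lemma tsum_split {f : ℤ × ℤ → ℂ} (hf : Summable f) :
    ∑' γ, f γ = ∑ x : CP E, ∑' μ : ℤ × ℤ, f (liftv x + ((E : ℤ) * μ.1, (E : ℤ) * μ.2)) := by
  have h := (splitEquiv E).summable_iff.2 hf
  rw [← (splitEquiv E).tsum_eq f]
  exact h.tsum_prod.trans (tsum_fintype _)

/-- The twisted theta series. -/
noncomputable def bin (φ : CP E → ℂ) (τ u v : ℂ) : ℂ :=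
  ∑' γ : ℤ × ℤ, φ (redv E γ) * jterm (τ / E) u (v / E) (emb γ)

/-- The twisted theta series of the dual lattice. -/
noncomputable def bind (ψ : CP E → ℂ) (τ u v : ℂ) : ℂ :=
  ∑' γ : ℤ × ℤ, ψ (redv E γ) * jterm (τ / E) u (v / E) (demb γ)

/-- `τ / E` lies in the upper half plane. -/
lemma div_im_pos {τ : ℂ} (hτ : 0 < τ.im) : 0 < (τ / E).im := by
  rw [Complex.div_natCast_im]
  exact div_pos hτ (Nat.cast_pos.2 (NeZero.pos E))

/-- Multiplying a summable series by a periodic factor keeps it summable. -/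
lemma summable_twist {T : Type*} [Finite T] (φ : T → ℂ) (r : ℤ × ℤ → T) {f : ℤ × ℤ → ℂ}
    (hf : Summable f) : Summable fun γ => φ (r γ) * f γ := by
  have := Fintype.ofFinite T
  refine Summable.of_norm_bounded (hf.norm.mul_left (∑ t, ‖φ t‖)) fun γ => ?_
  rw [norm_mul]
  exact mul_le_mul_of_nonneg_right
    (Finset.single_le_sum (fun t _ => norm_nonneg (φ t)) (Finset.mem_univ _)) (norm_nonneg _)

/-- The twisted theta series converges. -/
lemma summable_bin (φ : CP E → ℂ) {τ : ℂ} (hτ : 0 < τ.im) (u v : ℂ) :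
    Summable fun γ => φ (redv E γ) * jterm (τ / E) u (v / E) (emb γ) :=
  summable_twist φ _ (summable_jac (div_im_pos hτ) _ _)

/-- The twisted theta series of the dual lattice converges. -/
lemma summable_bind (φ : CP E → ℂ) {τ : ℂ} (hτ : 0 < τ.im) (u v : ℂ) :
    Summable fun γ => φ (redv E γ) * jterm (τ / E) u (v / E) (demb γ) :=
  summable_twist φ _ (summable_jacd (div_im_pos hτ) _ _)

/-- A term at `a + E b` as a phase times a term at level `E τ`. -/
lemma jterm_class (τ u v a b : ℂ) :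
    jterm (τ / E) u (v / E) (a + (E : ℂ) * b)
      = cexp (2 * π * I * ((-(a * conj v).re : ℝ) / (E : ℂ))) *
        jterm ((E : ℂ) * τ) ((u - a) / E) v b := by
  have hE : (E : ℂ) ≠ 0 := by exact_mod_cast NeZero.ne E
  rw [jterm, jterm, ← Complex.exp_add, ← mul_add, jE, jE]
  congr 2
  simp [Complex.normSq_apply]
  field_simp
  ring

/-- The twisted theta series as a combination of untwisted ones, one for each class. -/
lemma bin_eq_sum (φ : CP E → ℂ) {τ : ℂ} (hτ : 0 < τ.im) (u v : ℂ) :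
    bin φ τ u v = ∑ x : CP E, φ x *
      (cexp (2 * π * I * ((-(emb (liftv x) * conj v).re : ℝ) / (E : ℂ))) *
        jac ((E : ℂ) * τ) ((u - emb (liftv x)) / E) v) := by
  rw [bin, tsum_split (E := E) (summable_bin φ hτ u v)]
  refine Finset.sum_congr rfl fun x _ => ?_
  rw [jac, ← tsum_mul_left, ← tsum_mul_left]
  refine tsum_congr fun μ => ?_
  rw [redv_add_mul, redv_liftv, emb_liftv_add, jterm_class]

/-- The twisted dual theta series as a combination of shifted ones. -/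
lemma bind_eq_sum (φ : CP E → ℂ) {τ : ℂ} (hτ : 0 < τ.im) (u v : ℂ) :
    bind φ τ u v = ∑ x : CP E, φ x *
      (cexp (2 * π * I * ((-(demb (liftv x) * conj v).re : ℝ) / (E : ℂ))) *
        jacd ((E : ℂ) * τ) ((u - demb (liftv x)) / E) v) := by
  rw [bind, tsum_split (E := E) (summable_bind φ hτ u v)]
  refine Finset.sum_congr rfl fun x _ => ?_
  rw [jacd, ← tsum_mul_left, ← tsum_mul_left]
  refine tsum_congr fun μ => ?_
  rw [redv_add_mul, redv_liftv, demb_liftv_add, jterm_class]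

/-- Fourier transform to the dual classes. -/
noncomputable def ftd (φ : CP E → ℂ) (p : CP E) : ℂ := ∑ x, φ x * ee E (-cdot x p)

/-- Fourier transform from the dual classes. -/
noncomputable def ftb (ψ : CP E → ℂ) (x : CP E) : ℂ := ∑ p, ψ p * ee E (cdot x p)

/-- The pairing of a class with the class of an integral vector. -/
lemma cdot_red (x : CP E) (γ : ℤ × ℤ) :
    cdot x (redv E γ) = (((liftv x).1 * γ.1 + (liftv x).2 * γ.2 : ℤ) : ZMod E) := by
  simp [cdot, redv, liftv]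

/-- Inverting `τ` turns the binary series of `φ` into the dual one of its Fourier transform. -/
theorem bin_inv (φ : CP E → ℂ) {τ : ℂ} (hτ : 0 < τ.im) (u v : ℂ) :
    bin φ (-τ⁻¹) u v = -I * τ / ((Real.sqrt 3 : ℂ) * E) * bind (ftd φ) τ v (-u) := by
  have hE : (E : ℂ) ≠ 0 := by exact_mod_cast NeZero.ne E
  have h0 : τ ≠ 0 := fun h => by simp [h] at hτ
  rw [bin_eq_sum φ (neg_inv_im_pos hτ), bind]
  simp only [ftd, Finset.sum_mul]
  rw [Summable.tsum_finsetSum (fun x _ => ?_), Finset.mul_sum]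
  swap
  · exact summable_twist (fun p => φ x * ee E (-cdot x p)) (redv E)
      (summable_jacd (div_im_pos hτ) _ _)
  refine Finset.sum_congr rfl fun x _ => ?_
  rw [show (E : ℂ) * -τ⁻¹ = -(τ / E)⁻¹ by rw [inv_div]; field_simp,
    jac_inv (div_im_pos hτ), jacd, ← tsum_mul_left, ← tsum_mul_left, ← tsum_mul_left,
    ← tsum_mul_left]
  refine tsum_congr fun γ => ?_
  have hphase : cexp (2 * π * I * ((-(emb (liftv x) * conj v).re : ℝ) / (E : ℂ))) *
      jterm (τ / E) v (-((u - emb (liftv x)) / E)) (demb γ)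
      = ee E (-cdot x (redv E γ)) * jterm (τ / E) v (-u / E) (demb γ) := by
    rw [cdot_red, ← Int.cast_neg, ee_int, jterm, jterm, ← Complex.exp_add, ← Complex.exp_add]
    congr 1
    have hp := pair_emb_demb (liftv x) γ
    push_cast
    rw [show -((((liftv x).1 : ℂ) * γ.1 + ((liftv x).2 : ℂ) * γ.2))
      = ((-(2 * (emb (liftv x) * conj (demb γ)).re) : ℝ) : ℂ) by rw [hp]; push_cast; ring]
    simp [jE]
    field_simp
    ring
  linear_combination (φ x * (-I * (τ / E) / (Real.sqrt 3 : ℂ))) * hphase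

/-- Inversion on the dual lattice. -/
theorem bind_inv (ψ : CP E → ℂ) {τ : ℂ} (hτ : 0 < τ.im) (u v : ℂ) :
    bind ψ (-τ⁻¹) u v = -I * (Real.sqrt 3 : ℂ) * τ / E * bin (ftb ψ) τ (-v) u := by
  have hE : (E : ℂ) ≠ 0 := by exact_mod_cast NeZero.ne E
  have h0 : τ ≠ 0 := fun h => by simp [h] at hτ
  rw [bind_eq_sum ψ (neg_inv_im_pos hτ), bin]
  simp only [ftb, Finset.sum_mul]
  rw [Summable.tsum_finsetSum (fun x _ => ?_), Finset.mul_sum]
  swap
  · exact summable_twist (fun p => ψ x * ee E (cdot p x)) (redv E)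
      (summable_jac (div_im_pos hτ) _ _)
  refine Finset.sum_congr rfl fun x _ => ?_
  rw [show (E : ℂ) * -τ⁻¹ = -(τ / E)⁻¹ by rw [inv_div]; field_simp,
    jacd_inv (div_im_pos hτ), jac, ← tsum_mul_left, ← tsum_mul_left, ← tsum_mul_left,
    ← tsum_mul_left]
  refine tsum_congr fun γ => ?_
  have hphase : cexp (2 * π * I * ((-(demb (liftv x) * conj v).re : ℝ) / (E : ℂ))) *
      jterm (τ / E) (-v) ((u - demb (liftv x)) / E) (emb γ)
      = ee E (cdot (redv E γ) x) * jterm (τ / E) (-v) (u / E) (emb γ) := by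
    rw [show cdot (redv E γ) x = (((liftv x).1 * γ.1 + (liftv x).2 * γ.2 : ℤ) : ZMod E) by
      simp [cdot, redv, liftv]; ring, ee_int, jterm, jterm, ← Complex.exp_add, ← Complex.exp_add]
    congr 1
    have hp := pair_emb_demb γ (liftv x)
    push_cast
    rw [show (((liftv x).1 : ℂ) * γ.1 + ((liftv x).2 : ℂ) * γ.2)
      = (((2 * (emb γ * conj (demb (liftv x))).re) : ℝ) : ℂ) by rw [hp]; push_cast; ring]
    simp [jE]
    field_simp
    ring
  linear_combination (ψ x * (-I * (Real.sqrt 3 : ℂ) * (τ / E))) * hphase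

/-- Translating `τ` by multiples of three multiplies by phases and shifts the characteristic. -/
lemma bind_add_three (ψ : CP E → ℂ) (τ u v : ℂ) (k : ℤ) :
    bind ψ (τ + (3 * k : ℤ)) u v
      = bind (fun p => ee E ((k : ZMod E) * cdual p) * ψ p) τ u (v + (3 * k : ℤ) * u) := by
  refine tsum_congr fun γ => ?_
  simp only
  have e : cdual (redv E γ) = ((qd γ.1 γ.2 : ℤ) : ZMod E) := by simp [cdual, redv, qd]
  rw [e, ← Int.cast_mul, ee_int, jterm, jterm, mul_comm (cexp _) (ψ _), mul_assoc (ψ _),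
    ← Complex.exp_add]
  congr 2
  rw [show (τ + (3 * k : ℤ)) / (E : ℂ) = τ / E + ((3 * k / E : ℝ) : ℂ) by push_cast; ring,
    jE_add, show (3 * (k : ℝ) / E) * Complex.normSq (demb γ)
      = (k : ℝ) * (3 * Complex.normSq (demb γ)) / E by ring, normSq_demb]
  push_cast
  ring_nf

/-- `φ` to `x ↦ e(e b N x / E) φ (e x)`. -/
noncomputable def diagOp (b e : ZMod E) (φ : CP E → ℂ) (x : CP E) : ℂ :=
  ee E (e * b * cnorm x) * φ (e * x.1, e * x.2)

omit [NeZero E] in
/-- An element of `Γ₀(3 E)` comes from one of `Γ₀(3)`, conjugated by `E`. -/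
lemma exists_conj_gamma0 (hE3 : Nat.Coprime E 3) {γ : Matrix.SpecialLinearGroup (Fin 2) ℤ}
    (hc : (γ 1 0 : ZMod 3) = 0) (hcE : (γ 1 0 : ZMod E) = 0) :
    ∃ (c' : ℤ) (γ' : Matrix.SpecialLinearGroup (Fin 2) ℤ), γ 1 0 = E * c' ∧
      (c' : ZMod 3) = 0 ∧
      (γ' : Matrix (Fin 2) (Fin 2) ℤ) = !![γ 0 0, E * γ 0 1; c', γ 1 1] := by
  obtain ⟨c', hc'⟩ := (ZMod.intCast_zmod_eq_zero_iff_dvd _ _).1 hcE
  refine ⟨c', ⟨!![γ 0 0, E * γ 0 1; c', γ 1 1], ?_⟩, hc', ?_, rfl⟩
  · have hdet : γ 0 0 * γ 1 1 - γ 0 1 * γ 1 0 = 1 := by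
      rw [← Matrix.det_fin_two]; exact γ.det_coe
    rw [Matrix.det_fin_two_of]
    linear_combination hdet + (γ 0 1) * hc'
  · have hu : IsUnit ((E : ℤ) : ZMod 3) := by
      rw [Int.cast_natCast]; exact (ZMod.isUnit_iff_coprime E 3).2 hE3
    rw [hc', Int.cast_mul] at hc
    exact hu.mul_right_eq_zero.1 hc

/-- The phases of a class `x` and of `y = a x - E μ` differ by the twist of `diagOp`. -/
lemma gamma0_phase (a b : ℤ) {x y μ : ℤ × ℤ} (v u' v' : ℂ)
    (hax : (a : ℂ) * emb x = emb y + (E : ℂ) * emb μ) (hv : v = (a : ℂ) * v' - (b : ℂ) * u') :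
    cexp (2 * π * I * ((-(emb x * conj v).re : ℝ) / (E : ℂ))) *
      cexp (2 * π * I * (((emb μ * conj v').re
        - ((u' - emb y) / E * conj (emb (b * x.1, b * x.2))).re
        - (emb μ * conj (emb (b * x.1, b * x.2))).re : ℝ) : ℂ))
      = ee E ((b : ZMod E) * (a : ZMod E) * cnorm (redv E x)) *
        cexp (2 * π * I * ((-(emb y * conj v').re : ℝ) / (E : ℂ))) := by
  have hE : (E : ℂ) ≠ 0 := by exact_mod_cast NeZero.ne E
  have hbx : (b : ℂ) * emb x = emb (b * x.1, b * x.2) := by simp [emb]; ring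
  set k : ℤ := b * (2 * μ.1 * x.1 + μ.1 * x.2 + μ.2 * x.1 + 2 * μ.2 * x.2) with hk
  have en : (b : ZMod E) * (a : ZMod E) * cnorm (redv E x)
      = ((b * a * qh x.1 x.2 : ℤ) : ZMod E) := by
    simp [cnorm, qh, redv]
  rw [en, ee_int, ← Complex.exp_add, ← Complex.exp_add, ← mul_add, ← mul_add,
    ← cexp_two_pi_int k]
  congr 2
  have hkk : ((k : ℤ) : ℝ) = (b : ℝ) * (2 * (emb μ * conj (emb x)).re) := by
    rw [pair_emb_emb, hk]; push_cast; ring
  have hn : ((qh x.1 x.2 : ℤ) : ℝ) = Complex.normSq (emb x) := (normSq_emb _).symm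
  have hre : ((qh x.1 x.2 : ℤ) : ℂ) = ((Complex.normSq (emb x) : ℝ) : ℂ) := by rw [← hn]; simp
  have hkc : ((k : ℤ) : ℂ) = (((b : ℝ) * (2 * (emb μ * conj (emb x)).re) : ℝ) : ℂ) := by
    rw [← hkk]; simp
  have hyy : emb y = (a : ℂ) * emb x - (E : ℂ) * emb μ := by rw [hax]; ring
  push_cast
  rw [hre, hkc, hyy, ← hbx, hv]
  simp [Complex.normSq_apply]
  field_simp
  ring

/-- The law under `Γ₀(E) ∩ Γ₁(3)`. -/
theorem bin_gamma0 (hE3 : Nat.Coprime E 3) {γ : Matrix.SpecialLinearGroup (Fin 2) ℤ}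
    (ha : (γ 0 0 : ZMod 3) = 1) (hc : (γ 1 0 : ZMod 3) = 0) (hcE : (γ 1 0 : ZMod E) = 0)
    (φ : CP E → ℂ) {τ : ℂ} (hτ : 0 < τ.im) (u v : ℂ) :
    bin φ (((γ 0 0 : ℂ) * τ + γ 0 1) / ((γ 1 0 : ℂ) * τ + γ 1 1)) u v
      = ((γ 1 0 : ℂ) * τ + γ 1 1) * bin (diagOp (γ 0 1 : ZMod E) (γ 1 1 : ZMod E) φ) τ
          ((γ 0 0 : ℂ) * u + (γ 1 0 : ℂ) * v) ((γ 0 1 : ℂ) * u + (γ 1 1 : ℂ) * v) := by
  have hE : (E : ℂ) ≠ 0 := by exact_mod_cast NeZero.ne E
  -- `γ` at level `E` comes from `γ'` in `Γ₁(3)`, acting on `E τ`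
  obtain ⟨c', γ', hc', hc3, hγ'⟩ := exists_conj_gamma0 hE3 hc hcE
  have hdet : γ 0 0 * γ 1 1 - γ 0 1 * γ 1 0 = 1 := by rw [← Matrix.det_fin_two]; exact γ.det_coe
  have hJ := jlaw_of_mem (γ := γ') (by rw [hγ']; simpa using ha) (by rw [hγ']; simpa using hc3)
  set d := (γ 1 0 : ℂ) * τ + γ 1 1 with hd
  have hEτ : 0 < ((E : ℂ) * τ).im := by
    simpa using mul_pos (Nat.cast_pos.2 (NeZero.pos E)) hτ
  set σ := ((γ 0 0 : ℂ) * τ + γ 0 1) / d with hσ
  have hσ' : (E : ℂ) * σ
      = ((γ' 0 0 : ℂ) * ((E : ℂ) * τ) + γ' 0 1) / ((γ' 1 0 : ℂ) * ((E : ℂ) * τ) + γ' 1 1) := by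
    rw [hγ', hσ, hd, hc']
    simp
    field_simp
  have hσim : 0 < σ.im := by
    have := (hJ _ u v hEτ).1
    rw [← hσ'] at this
    simp at this
    exact (mul_pos_iff_of_pos_left (Nat.cast_pos.2 (NeZero.pos E))).1 this
  set u' := (γ 0 0 : ℂ) * u + (γ 1 0 : ℂ) * v with hu'
  set v' := (γ 0 1 : ℂ) * u + (γ 1 1 : ℂ) * v with hv'
  have hae : (γ 0 0 : ZMod E) * (γ 1 1 : ZMod E) = 1 := by
    have h := congrArg (fun z : ℤ => (z : ZMod E)) hdet
    push_cast at h
    rwa [hcE, mul_zero, sub_zero] at h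
  -- expand both sides by classes and match the class `x` with `y`
  rw [bin_eq_sum φ hσim, bin_eq_sum _ hτ, Finset.mul_sum]
  let ea : CP E ≃ CP E :=
    (Units.mkOfMulEqOne _ _ hae).mulLeft.prodCongr (Units.mkOfMulEqOne _ _ hae).mulLeft
  conv_rhs => rw [← ea.sum_comp]
  refine Finset.sum_congr rfl fun x _ => ?_
  set y := ea x with hy
  have hea : ea x = ((γ 0 0 : ZMod E) * x.1, (γ 0 0 : ZMod E) * x.2) := rfl
  have hphi : (diagOp (γ 0 1 : ZMod E) (γ 1 1 : ZMod E) φ) y
      = ee E ((γ 0 1 : ZMod E) * (γ 0 0 : ZMod E) * cnorm x) * φ x := by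
    rw [diagOp, hy]
    congr 1
    · congr 1
      simp only [hea, cnorm, qh]
      linear_combination ((γ 0 1 : ZMod E) * (γ 0 0 : ZMod E) *
        (x.1 ^ 2 + x.1 * x.2 + x.2 ^ 2)) * hae
    · congr 1
      simp only [hea, ← mul_assoc]
      rw [mul_comm (γ 1 1 : ZMod E) (γ 0 0 : ZMod E), hae, one_mul, one_mul]
  obtain ⟨μ, hμ⟩ := exists_liftv (E := E) (γ 0 0 * (liftv x).1, γ 0 0 * (liftv x).2)
  have hred : redv E (γ 0 0 * (liftv x).1, γ 0 0 * (liftv x).2) = y := by
    simp [hy, hea, redv, liftv]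
  rw [hred] at hμ
  set ν : ℤ × ℤ := (γ 0 1 * (liftv x).1, γ 0 1 * (liftv x).2) with hν
  have hax : (γ 0 0 : ℂ) * emb (liftv x) = emb (liftv y) + (E : ℂ) * emb μ := by
    rw [← emb_liftv_add, ← hμ]; simp [emb]; ring
  have hbx : (γ 0 1 : ℂ) * emb (liftv x) = emb ν := by simp [emb, hν]; ring
  -- apply the Jacobi law of `γ'`
  rw [hσ', (hJ _ _ _ hEτ).2, hphi]
  have e1 : (γ' 1 0 : ℂ) * ((E : ℂ) * τ) + γ' 1 1 = d := by
    rw [hγ', hd, hc']; simp; ring
  have e2 : (γ' 0 0 : ℂ) * ((u - emb (liftv x)) / E) + (γ' 1 0 : ℂ) * v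
      = (u' - emb (liftv y)) / E - emb μ := by
    have hyy : emb (liftv y) = (γ 0 0 : ℂ) * emb (liftv x) - (E : ℂ) * emb μ := by rw [hax]; ring
    rw [hγ', hu', hc', hyy]
    simp
    field_simp
    ring
  have e3 : (γ' 0 1 : ℂ) * ((u - emb (liftv x)) / E) + (γ' 1 1 : ℂ) * v = v' - emb ν := by
    rw [hγ', hv', ← hbx]
    simp
    field_simp
    ring
  rw [e1, e2, e3, jac_shift]
  -- it remains to compare phases
  have hv : v = (γ 0 0 : ℂ) * v' - (γ 0 1 : ℂ) * u' := by
    rw [hu', hv']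
    have h := congrArg (fun z : ℤ => (z : ℂ)) hdet
    push_cast at h
    linear_combination (-v) * h
  have hph := gamma0_phase (γ 0 0) (γ 0 1) v u' v' hax hv
  rw [redv_liftv, ← hν] at hph
  linear_combination (φ x * d * jac ((E : ℂ) * τ) ((u' - emb (liftv y)) / E) v') * hph

/-- The twisted series determines the twist. -/
theorem bin_injective {φ : CP E → ℂ}
    (h : ∀ τ u v : ℂ, 0 < τ.im → bin φ τ u v = 0) : φ = 0 := by
  funext x0
  set b := emb (liftv x0) with hb
  have hterm : ∀ (t : ℝ) (γ : ℤ × ℤ), φ (redv E γ) * jterm ((t : ℂ) * I / E) b (0 / E) (emb γ)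
      = φ (redv E γ) * (Real.exp (-(2 * π * Complex.normSq (emb γ - b) / E) * t) : ℂ) := by
    intro t γ
    rw [jterm, Complex.ofReal_exp]
    congr 2
    simp [jE]
    ring_nf
    rw [I_sq]
    ring
  have hinj : ∀ γ, emb γ = b → γ = liftv x0 := fun γ hγ => by
    have h1 := congrArg Complex.re hγ
    have h2 := congrArg Complex.im hγ
    rw [hb, emb_im, emb_im, mul_left_inj' (by simp)] at h2
    rw [hb, emb_re, emb_re, h2] at h1
    exact Prod.ext (by exact_mod_cast (add_right_cancel h1)) (by exact_mod_cast h2)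
  have hs := (summable_bin φ (τ := ((1 : ℝ) : ℂ) * I) (by simp) b 0).norm
  simp only [hterm] at hs
  -- as `t → ∞` only the term at the lift of `x0` survives
  have hlim : Tendsto (fun t : ℝ => bin φ ((t : ℂ) * I) b 0) atTop (𝓝 (φ x0)) := by
    have e : φ x0 = ∑' γ : ℤ × ℤ, if γ = liftv x0 then φ x0 else 0 := by rw [tsum_ite_eq]
    rw [e]
    simp only [bin, hterm]
    refine tendsto_tsum_of_dominated_convergence hs (fun γ => ?_) ?_
    · by_cases hγ : γ = liftv x0
      · rw [if_pos hγ]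
        simp [hγ, hb, redv_liftv]
      · rw [if_neg hγ]
        have hp : 0 < 2 * π * Complex.normSq (emb γ - b) / E := by
          have : 0 < Complex.normSq (emb γ - b) :=
            Complex.normSq_pos.2 (sub_ne_zero.2 fun h' => hγ (hinj γ h'))
          have := NeZero.pos E
          positivity
        have := ((Complex.continuous_ofReal.tendsto 0).comp
          (Real.tendsto_exp_atBot.comp
            (tendsto_id.const_mul_atTop_of_neg (neg_lt_zero.2 hp)))).const_mul
          (φ (redv E γ))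
        simpa using this
    · filter_upwards [eventually_ge_atTop (1 : ℝ)] with t ht γ
      rw [norm_mul, norm_mul, Complex.norm_real, Complex.norm_real, Real.norm_eq_abs,
        Real.norm_eq_abs, Real.abs_exp, Real.abs_exp]
      refine mul_le_mul_of_nonneg_left (Real.exp_le_exp.2 ?_) (norm_nonneg _)
      have := Complex.normSq_nonneg (emb γ - b)
      exact mul_le_mul_of_nonpos_left ht (neg_nonpos.2 (by positivity))
  refine tendsto_nhds_unique hlim (tendsto_const_nhds.congr' ?_)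
  filter_upwards [eventually_gt_atTop (0 : ℝ)] with t ht
  exact (h _ b 0 (by simpa using ht)).symm

end Fermat.LT3
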