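import Fermat.Agent.LT3.Theta.Weil

/-!
# Binary theta series with a congruence modulo three

`binC b₀ φ` restricts `bin` to a class modulo `3`; under `Γ₁(27)` it transforms by the operators
`wW`, the conjugates of `wop` by the scaling `diag(9, 1)` and multiplication by three.
-/

set_option autoImplicit false
open Complex Matrix
open scoped Real ComplexConjugate MatrixGroups

namespace Fermat.LT3

variable {E : ℕ} [NeZero E]

/-- The effect on a term of translating the characteristics and the lattice point by multiples of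
`E`. -/
lemma jterm_translate (τ u v : ℂ) (μ ν γ : ℤ × ℤ) :
    jterm (τ / E) (u - (E : ℂ) * emb μ) ((v - (E : ℂ) * emb ν) / E) (emb γ - (E : ℂ) * emb μ)
      = cexp (2 * π * I * (((emb μ * conj v).re - (u * conj (emb ν)).re
          - (E : ℝ) * (emb μ * conj (emb ν)).re : ℝ) : ℂ)) * jterm (τ / E) u (v / E) (emb γ) := by
  have hE : (E : ℂ) ≠ 0 := by exact_mod_cast NeZero.ne E
  set k : ℤ := 2 * γ.1 * ν.1 + γ.1 * ν.2 + γ.2 * ν.1 + 2 * γ.2 * ν.2 with hk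
  rw [jterm, jterm, ← Complex.exp_add, ← mul_add, ← cexp_two_pi_int k (_ + _)]
  congr 2
  have hkk : ((k : ℤ) : ℝ) = 2 * (emb γ * conj (emb ν)).re := (pair_emb_emb γ ν).symm
  rw [← Complex.ofReal_intCast k, hkk, jE, jE, show (E : ℂ) = ((E : ℝ) : ℂ) by simp]
  simp [Complex.normSq_apply]
  field_simp
  ring

/-- Translating the characteristics of `bin` by multiples of `E`. -/
lemma bin_shift (φ : CP E → ℂ) (τ u v : ℂ) (μ ν : ℤ × ℤ) :
    bin φ τ (u - (E : ℂ) * emb μ) (v - (E : ℂ) * emb ν)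
      = cexp (2 * π * I * (((emb μ * conj v).re - (u * conj (emb ν)).re
          - (E : ℝ) * (emb μ * conj (emb ν)).re : ℝ) : ℂ)) * bin φ τ u v := by
  rw [bin, bin, ← tsum_mul_left, ← (Equiv.subRight ((E : ℤ) * μ.1, (E : ℤ) * μ.2)).tsum_eq]
  refine tsum_congr fun γ => ?_
  have he : emb (γ - ((E : ℤ) * μ.1, (E : ℤ) * μ.2)) = emb γ - (E : ℂ) * emb μ := by
    simp [emb]; ring
  have hr : redv E (γ - ((E : ℤ) * μ.1, (E : ℤ) * μ.2)) = redv E γ := by simp [redv]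
  rw [Equiv.subRight_apply, hr, he, jterm_translate]
  ring

/-- The restriction to a class modulo three. -/
noncomputable def binC (b₀ : CP 3) (φ : CP E → ℂ) (τ u v : ℂ) : ℂ :=
  ∑' γ : ℤ × ℤ, (if redv 3 γ = b₀ then φ (redv E γ) else 0) * jterm (τ / E) u (v / E) (emb γ)

/-- Multiplication by three on classes. -/
def tri (φ : CP E → ℂ) : CP E → ℂ := fun x => φ (3 * x.1, 3 * x.2)

variable [Fact (Nat.Coprime E 3)]

/-- Precomposition with division by three modulo `E`. -/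
noncomputable def triInv (φ : CP E → ℂ) : CP E → ℂ := fun x => φ (inv3 * x.1, inv3 * x.2)

omit [NeZero E] in
/-- Division by three is a right inverse of multiplication by three. -/
lemma tri_triInv (φ : CP E → ℂ) : tri (triInv φ) = φ := by
  funext x
  have h := three_mul_inv3 (E := E)
  simp only [tri, triInv, ← mul_assoc]
  rw [mul_comm inv3 (3 : ZMod E), h, one_mul, one_mul]

/-- A representative of the class modulo three which is divisible by `E`. -/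
noncomputable def rep3 (E : ℕ) (b₀ : CP 3) : ℤ × ℤ :=
  ((E : ℤ) * (((E : ZMod 3)⁻¹ * b₀.1).val : ℤ), (E : ℤ) * (((E : ZMod 3)⁻¹ * b₀.2).val : ℤ))

omit [NeZero E] in
/-- The representative reduces to the given class modulo three. -/
lemma redv_rep3 (b₀ : CP 3) : redv 3 (rep3 E b₀) = b₀ := by
  have h : Nat.Coprime E 3 := Fact.out
  have hu : (E : ZMod 3) * (E : ZMod 3)⁻¹ = 1 := ZMod.coe_mul_inv_eq_one E h
  simp [redv, rep3, ← mul_assoc, hu]

/-- The series of a class as a `bin`. -/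
lemma binC_eq (b₀ : CP 3) (φ : CP E → ℂ) (τ u v : ℂ) :
    binC b₀ φ τ u v = cexp (2 * π * I * ((-(emb (rep3 E b₀) * conj v).re : ℝ) / (E : ℂ))) *
      bin (tri φ) (9 * τ) ((u - emb (rep3 E b₀)) / 3) (3 * v) := by
  have hE : (E : ℂ) ≠ 0 := by exact_mod_cast NeZero.ne E
  set b := rep3 E b₀ with hb
  have hinj : Function.Injective fun γ : ℤ × ℤ => b + ((3 : ℤ) * γ.1, (3 : ℤ) * γ.2) :=
      fun p q h => by
    simpa [Prod.ext_iff] using h
  -- only `γ ≡ b₀` modulo `3` contribute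
  have hsupp : Function.support (fun γ => (if redv 3 γ = b₀ then φ (redv E γ) else 0) *
      jterm (τ / E) u (v / E) (emb γ)) ⊆
      Set.range fun γ : ℤ × ℤ => b + ((3 : ℤ) * γ.1, (3 : ℤ) * γ.2) := by
    intro γ hγ
    simp only [Function.mem_support, ne_eq] at hγ
    by_cases hc : redv 3 γ = b₀
    · rw [← redv_rep3 (E := E) b₀, ← hb] at hc
      simp only [redv, Prod.mk.injEq, ZMod.intCast_eq_intCast_iff_dvd_sub] at hc
      obtain ⟨⟨i, hi⟩, ⟨j, hj⟩⟩ := hc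
      exact ⟨(-i, -j),
        Prod.ext (by simp; push_cast at hi; linarith) (by simp; push_cast at hj; linarith)⟩
    · simp [hc] at hγ
  rw [binC, bin, ← hinj.tsum_eq hsupp, ← tsum_mul_left]
  refine tsum_congr fun γ => ?_
  -- on those the summands agree
  have h3 : redv 3 (b + ((3 : ℤ) * γ.1, (3 : ℤ) * γ.2)) = b₀ := by
    rw [← redv_rep3 (E := E) b₀, hb]; simp [redv, show (3 : ZMod 3) = 0 from rfl]
  have hE' : redv E (b + ((3 : ℤ) * γ.1, (3 : ℤ) * γ.2)) =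
      (3 * (redv E γ).1, 3 * (redv E γ).2) := by
    simp [hb, rep3, redv]
  rw [if_pos h3, hE', tri, mul_left_comm]
  congr 1
  rw [jterm, jterm, ← Complex.exp_add, ← mul_add]
  congr 2
  have he : emb (b + ((3 : ℤ) * γ.1, (3 : ℤ) * γ.2)) = emb b + 3 * emb γ := by simp [emb]; ring
  rw [he, jE, jE, show (E : ℂ) = ((E : ℝ) : ℂ) by simp]
  simp [Complex.normSq_apply]
  field_simp
  ring

/-- Membership in `Γ₁(27)`. -/
def InG27 (γ : SL(2, ℤ)) : Prop := (γ 0 0 : ZMod 27) = 1 ∧ (γ 1 0 : ZMod 27) = 0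

/-- Membership in `Γ₁(27)` in divisibilities. -/
lemma InG27.dvd {γ : SL(2, ℤ)} (h : InG27 γ) :
    (27 : ℤ) ∣ γ 0 0 - 1 ∧ (27 : ℤ) ∣ γ 1 0 ∧ (27 : ℤ) ∣ γ 1 1 - 1 := by
  obtain ⟨ha, hc⟩ := h
  have h1 : (27 : ℤ) ∣ γ 0 0 - 1 := by
    have := (ZMod.intCast_eq_intCast_iff_dvd_sub (1 : ℤ) (γ 0 0) 27).1 (by rw [ha]; simp)
    simpa using this
  have h2 : (27 : ℤ) ∣ γ 1 0 := by
    have := (ZMod.intCast_zmod_eq_zero_iff_dvd _ 27).1 hc
    simpa using this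
  refine ⟨h1, h2, ?_⟩
  have hdet := γ.det_coe
  rw [Matrix.det_fin_two] at hdet
  obtain ⟨i, hi⟩ := h1
  obtain ⟨j, hj⟩ := h2
  exact ⟨γ 0 1 * j - i * γ 1 1, by
    linear_combination hdet + (γ 0 1) * hj - (γ 1 1) * hi⟩

/-- `Γ₁(27)` is closed under products. -/
lemma InG27.mul {γ δ : SL(2, ℤ)} (hγ : InG27 γ) (hδ : InG27 δ) : InG27 (γ * δ) := by
  obtain ⟨h1, h2⟩ := hγ
  obtain ⟨h3, h4⟩ := hδ
  refine ⟨?_, ?_⟩ <;>
    rw [SpecialLinearGroup.coe_mul, Matrix.mul_apply, Fin.sum_univ_two] <;>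
    push_cast <;> simp [h1, h2, h3, h4]

/-- Conjugation by `diag(9, 1)`. -/
noncomputable def conj9 (γ : SL(2, ℤ)) : SL(2, ℤ) :=
  if h : (9 : ℤ) ∣ γ 1 0 then
    ⟨!![γ 0 0, 9 * γ 0 1; γ 1 0 / 9, γ 1 1], by
      rw [Matrix.det_fin_two_of]
      have hdet := γ.det_coe
      rw [Matrix.det_fin_two] at hdet
      linear_combination hdet - (γ 0 1) * (Int.ediv_mul_cancel h)⟩
  else 1

/-- The entries of the conjugate by `diag(9, 1)`. -/
lemma conj9_coe {γ : SL(2, ℤ)} (h : InG27 γ) :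
    (conj9 γ : Matrix (Fin 2) (Fin 2) ℤ) = !![γ 0 0, 9 * γ 0 1; γ 1 0 / 9, γ 1 1] := by
  rw [conj9, dif_pos (dvd_trans (by norm_num) h.dvd.2.1)]

/-- Conjugation by `diag(9, 1)` carries `Γ₁(27)` into `Γ₁(3)`. -/
lemma InG27.conj9_mem {γ : SL(2, ℤ)} (h : InG27 γ) : InG3 (conj9 γ) := by
  obtain ⟨⟨i, hi⟩, ⟨j, hj⟩, -⟩ := h.dvd
  constructor
  · rw [conj9_coe h]
    simp
    rw [show γ 0 0 = 1 + 27 * i by linarith]
    simp [show (27 : ZMod 3) = 0 from rfl]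
  · rw [conj9_coe h]
    simp [hj, show (27 : ℤ) * j = 9 * (3 * j) by ring, show (3 : ZMod 3) = 0 from rfl]

/-- Conjugation by `diag(9, 1)` is multiplicative. -/
lemma conj9_mul {γ δ : SL(2, ℤ)} (hγ : InG27 γ) (hδ : InG27 δ) :
    conj9 (γ * δ) = conj9 γ * conj9 δ := by
  obtain ⟨-, ⟨i, hi⟩, -⟩ := hγ.dvd
  obtain ⟨-, ⟨j, hj⟩, -⟩ := hδ.dvd
  apply Subtype.ext
  show (conj9 (γ * δ) : Matrix (Fin 2) (Fin 2) ℤ) =
    ((conj9 γ * conj9 δ : SL(2, ℤ)) : Matrix (Fin 2) (Fin 2) ℤ)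
  rw [conj9_coe (hγ.mul hδ)]
  simp only [SpecialLinearGroup.coe_mul]
  rw [conj9_coe hγ, conj9_coe hδ]
  have e1 : γ 1 0 / 9 = 3 * i := by omega
  have e2 : δ 1 0 / 9 = 3 * j := by omega
  have e3 : (γ 1 0 * δ 0 0 + γ 1 1 * δ 1 0) / 9 = 3 * i * δ 0 0 + γ 1 1 * (3 * j) := by
    rw [hi, hj, show 27 * i * δ 0 0 + γ 1 1 * (27 * j) = 9 * (3 * i * δ 0 0 + γ 1 1 * (3 * j)) by
      ring, Int.mul_ediv_cancel_left _ (by norm_num)]
  ext a b
  fin_cases a <;> fin_cases b <;>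
    simp [Matrix.mul_apply, Fin.sum_univ_two, e1, e2, e3] <;>
    (try rw [hi]) <;> (try rw [hj]) <;> ring

/-- Multiplication by three as a linear map. -/
noncomputable def triL : COp E where
  toFun := tri
  map_add' _ _ := rfl
  map_smul' _ _ := rfl

/-- Division by three as a linear map. -/
noncomputable def triInvL : COp E where
  toFun := triInv
  map_add' _ _ := rfl
  map_smul' _ _ := rfl

/-- **The operators on `Γ₁(27)`.** The operator of the conjugate by nine, transported to functions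
on classes. -/
noncomputable def wW (γ : SL(2, ℤ)) : COp E := triInvL ∘ₗ wop (conj9 γ) ∘ₗ triL

/-- The operators on `Γ₁(27)` reverse products. -/
lemma wW_mul {γ δ : SL(2, ℤ)} (hγ : InG27 γ) (hδ : InG27 δ) :
    wW (E := E) (γ * δ) = wW δ ∘ₗ wW γ := by
  rw [wW, wW, wW, conj9_mul hγ hδ, wop_mul hγ.conj9_mem hδ.conj9_mem]
  refine LinearMap.ext fun φ => ?_
  simp [triL, triInvL, tri_triInv]

/-- **The transformation law.** On `Γ₁(27)` the shifted binary theta series transforms in weight one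
with `wW γ`. -/
theorem binC_law (b₀ : CP 3) {γ : SL(2, ℤ)} (hγ : InG27 γ) (φ : CP E → ℂ) {τ : ℂ} (hτ : 0 < τ.im)
    (u v : ℂ) :
    binC b₀ φ (((γ 0 0 : ℂ) * τ + γ 0 1) / ((γ 1 0 : ℂ) * τ + γ 1 1)) u v
      = ((γ 1 0 : ℂ) * τ + γ 1 1) * binC b₀ (wW γ φ) τ
          ((γ 0 0 : ℂ) * u + (γ 1 0 : ℂ) * v) ((γ 0 1 : ℂ) * u + (γ 1 1 : ℂ) * v) := by
  have hE : (E : ℂ) ≠ 0 := by exact_mod_cast NeZero.ne E
  obtain ⟨⟨i, hi⟩, ⟨j, hj⟩, -⟩ := hγ.dvd
  set d := (γ 1 0 : ℂ) * τ + γ 1 1 with hd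
  have h9 : 0 < ((9 : ℂ) * τ).im := by simp; exact hτ
  set u' := (γ 0 0 : ℂ) * u + (γ 1 0 : ℂ) * v with hu'
  set v' := (γ 0 1 : ℂ) * u + (γ 1 1 : ℂ) * v with hv'
  set σ := ((γ 0 0 : ℂ) * τ + γ 0 1) / d with hσ
  -- apply the law of the conjugate at `9 τ` to the restricted series
  have hlaw := blaw_wop (E := E) hγ.conj9_mem (tri φ) (9 * τ)
    ((u - emb (rep3 E b₀)) / 3) (3 * v) h9
  have hC := conj9_coe hγ
  have e10 : γ 1 0 / 9 = 3 * j := by omega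
  rw [hC] at hlaw
  simp only [Matrix.of_apply, Matrix.cons_val', Matrix.cons_val_zero, Matrix.cons_val_one,
    Matrix.empty_val', Matrix.cons_val_fin_one, e10, Int.cast_mul, Int.cast_ofNat] at hlaw
  have eσ : ((γ 0 0 : ℂ) * (9 * τ) + 9 * (γ 0 1 : ℂ)) / (3 * (j : ℂ) * (9 * τ) + γ 1 1) =
      9 * σ := by
    rw [hσ, hd, hj]; push_cast; ring
  have ed : (3 * (j : ℂ) * (9 * τ) + γ 1 1) = d := by rw [hd, hj]; push_cast; ring
  rw [eσ, ed] at hlaw
  obtain ⟨bq, hbq⟩ : ∃ bq : ℤ × ℤ, rep3 E b₀ = ((E : ℤ) * bq.1, (E : ℤ) * bq.2) :=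
    ⟨((((E : ZMod 3)⁻¹ * b₀.1).val : ℤ), (((E : ZMod 3)⁻¹ * b₀.2).val : ℤ)), rfl⟩
  set μ : ℤ × ℤ := (9 * i * bq.1, 9 * i * bq.2) with hμ
  set ν : ℤ × ℤ := (3 * γ 0 1 * bq.1, 3 * γ 0 1 * bq.2) with hν
  have hb : emb (rep3 E b₀) = (E : ℂ) * emb bq := by rw [hbq]; simp [emb]; ring
  have hμe : emb μ = 9 * (i : ℂ) * emb bq := by rw [hμ]; simp [emb]; ring
  have hνe : emb ν = 3 * (γ 0 1 : ℂ) * emb bq := by rw [hν]; simp [emb]; ring
  have ha : (γ 0 0 : ℂ) = 1 + 27 * (i : ℂ) := by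
    have : γ 0 0 = 1 + 27 * i := by linarith
    rw [this]; push_cast; ring
  -- its characteristics are `u'`, `v'` up to multiples of `E`
  have eu : (γ 0 0 : ℂ) * ((u - emb (rep3 E b₀)) / 3) + 3 * (j : ℂ) * (3 * v)
      = (u' - emb (rep3 E b₀)) / 3 - (E : ℂ) * emb μ := by
    rw [hu', hμe, hb, hj, ha]; push_cast; ring
  have ev : 9 * (γ 0 1 : ℂ) * ((u - emb (rep3 E b₀)) / 3) + (γ 1 1 : ℂ) * (3 * v)
      = 3 * v' - (E : ℂ) * emb ν := by
    rw [hv', hνe, hb]; ring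
  rw [eu, ev, bin_shift] at hlaw
  have htri : tri (wW γ φ) = wop (conj9 γ) (tri φ) := by
    rw [wW]; exact tri_triInv _
  -- rewrite both sides; it remains to compare phases
  rw [binC_eq, binC_eq, hlaw, htri]
  have hv : v = (γ 0 0 : ℂ) * v' - (γ 0 1 : ℂ) * u' := by
    have h := congrArg (fun z : ℤ => (z : ℂ)) γ.det_coe
    simp only [Matrix.det_fin_two] at h
    push_cast at h
    rw [hu', hv']
    linear_combination (-v) * h
  set k : ℤ := γ 0 1 * (1 - 27 * i) * qh bq.1 bq.2 * E with hk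
  have hn : ((qh bq.1 bq.2 : ℤ) : ℝ) = Complex.normSq (emb bq) := (normSq_emb bq).symm
  have hph : cexp (2 * π * I * ((-(emb (rep3 E b₀) * conj v).re : ℝ) / (E : ℂ))) *
      cexp (2 * π * I * (((emb μ * conj (3 * v')).re
        - ((u' - emb (rep3 E b₀)) / 3 * conj (emb ν)).re
        - (E : ℝ) * (emb μ * conj (emb ν)).re : ℝ) : ℂ))
      = cexp (2 * π * I * ((-(emb (rep3 E b₀) * conj v').re : ℝ) / (E : ℂ))) := by
    rw [← Complex.exp_add, ← mul_add,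
      ← cexp_two_pi_int k ((-(emb (rep3 E b₀) * conj v').re : ℝ) / (E : ℂ))]
    congr 2
    have hkc : ((k : ℤ) : ℂ) =
        (((γ 0 1 : ℝ) * (1 - 27 * i) * Complex.normSq (emb bq) * E : ℝ) : ℂ) := by
      rw [← hn, hk]; push_cast; ring
    rw [hkc, hμe, hνe, hb, hv, ha]
    simp [Complex.normSq_apply]
    field_simp
    ring
  linear_combination (d * bin (wop (conj9 γ) (tri φ)) (9 * τ) ((u' - emb (rep3 E b₀)) / 3)
    (3 * v')) * hph

end Fermat.LT3
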