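import Fermat.Agent.LT3.Theta.HexPoisson
import Mathlib.LinearAlgebra.Matrix.SpecialLinearGroup
import Mathlib.Analysis.Complex.UpperHalfPlane.Basic

/-!
# The hexagonal Jacobi theta function

`jac τ u v` is the theta series of the lattice `ℤ[ω]` with two real characteristics; it transforms
under `Γ₁(3)` like a form of weight one, the characteristics transforming as a row vector.
-/

set_option autoImplicit false
open Complex
open scoped Real ComplexConjugate

namespace Fermat.LT3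

/-- `(1 + √-3)/2`. -/
noncomputable def w6 : ℂ := ⟨1 / 2, Real.sqrt 3 / 2⟩

/-- The lattice point with coordinates `(m, n)`. -/
noncomputable def emb (v : ℤ × ℤ) : ℂ := (v.1 : ℂ) + (v.2 : ℂ) * w6

/-- The point of the dual lattice with coordinates `(p, q)`. -/
noncomputable def demb (v : ℤ × ℤ) : ℂ :=
  ⟨(v.1 : ℝ) / 2, (2 * (v.2 : ℝ) - v.1) / (2 * Real.sqrt 3)⟩

/-- The real part of a lattice point. -/
lemma emb_re (v : ℤ × ℤ) : (emb v).re = (v.1 : ℝ) + (v.2 : ℝ) / 2 := by simp [emb, w6]; ring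

/-- The imaginary part of a lattice point. -/
lemma emb_im (v : ℤ × ℤ) : (emb v).im = (v.2 : ℝ) * (Real.sqrt 3 / 2) := by simp [emb, w6]

/-- The lattice embedding respects differences. -/
lemma emb_sub (v w : ℤ × ℤ) : emb (v - w) = emb v - emb w := by simp [emb]; ring

/-- `√3 * √3 = 3`. -/
lemma sqrt_three_sq : Real.sqrt 3 * Real.sqrt 3 = 3 := Real.mul_self_sqrt (by norm_num)

/-- `√3` is not zero. -/
lemma sqrt_three_ne : Real.sqrt 3 ≠ 0 := Real.sqrt_ne_zero'.2 (by norm_num)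

/-- The squared absolute value of a lattice point is the hexagonal form. -/
lemma normSq_emb (v : ℤ × ℤ) : Complex.normSq (emb v) = ((qh v.1 v.2 : ℤ) : ℝ) := by
  rw [Complex.normSq_apply, emb_re, emb_im, qh]
  push_cast
  linear_combination ((v.2 : ℝ) ^ 2 / 4) * sqrt_three_sq

/-- The squared absolute value of a dual lattice point. -/
lemma normSq_demb (v : ℤ × ℤ) : 3 * Complex.normSq (demb v) = ((qd v.1 v.2 : ℤ) : ℝ) := by
  rw [Complex.normSq_apply, demb, qd]
  have := sqrt_three_ne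
  push_cast
  field_simp
  ring_nf
  rw [show Real.sqrt 3 ^ 2 = 3 by rw [sq]; exact sqrt_three_sq]
  ring

/-- The pairing of the lattice with its dual in coordinates. -/
lemma pair_emb_demb (v w : ℤ × ℤ) :
    2 * (emb v * conj (demb w)).re = ((v.1 * w.1 + v.2 * w.2 : ℤ) : ℝ) := by
  rw [Complex.mul_re, emb_re, emb_im, demb]
  have := sqrt_three_ne
  simp
  field_simp
  ring

/-- The pairing of two lattice points in coordinates. -/
lemma pair_emb_emb (v w : ℤ × ℤ) :
    2 * (emb v * conj (emb w)).re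
      = ((2 * v.1 * w.1 + v.1 * w.2 + v.2 * w.1 + 2 * v.2 * w.2 : ℤ) : ℝ) := by
  rw [Complex.mul_re, Complex.conj_re, Complex.conj_im, emb_re, emb_re, emb_im, emb_im]
  push_cast
  linear_combination ((v.2 : ℝ) * w.2 / 2) * sqrt_three_sq

/-- The exponent. -/
noncomputable def jE (τ u v β : ℂ) : ℂ :=
  τ * (Complex.normSq (β - u) : ℝ)
    + ((-2 * (β * conj v).re + (u * conj v).re : ℝ) : ℂ)

/-- A term of the theta series. -/
noncomputable def jterm (τ u v β : ℂ) : ℂ := cexp (2 * π * I * jE τ u v β)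

/-- The theta series of the lattice. -/
noncomputable def jac (τ u v : ℂ) : ℂ := ∑' γ : ℤ × ℤ, jterm τ u v (emb γ)

/-- The theta series of the dual lattice. -/
noncomputable def jacd (τ u v : ℂ) : ℂ := ∑' γ : ℤ × ℤ, jterm τ u v (demb γ)

/-- `e (x + k) = e x` for an integer `k`. -/
lemma cexp_two_pi_int (k : ℤ) (x : ℂ) :
    cexp (2 * π * I * (x + k)) = cexp (2 * π * I * x) := by
  rw [show 2 * π * I * (x + k) = 2 * π * I * x + k * (2 * π * I) by ring, Complex.exp_add,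
    Complex.exp_int_mul_two_pi_mul_I, mul_one]

/-- How the exponent changes under translating `τ` by a real `k`. -/
lemma jE_add (τ u v β : ℂ) (k : ℝ) :
    jE (τ + k) u v β = jE τ u (v + k * u) β + ((k * Complex.normSq β : ℝ) : ℂ) := by
  simp [jE, Complex.normSq_apply, Complex.ext_iff, map_add, map_mul]
  ring

/-- An integer translation of `τ` shifts the second characteristic. -/
lemma jac_add_int (τ u v : ℂ) (k : ℤ) : jac (τ + k) u v = jac τ u (v + k * u) := by
  refine tsum_congr fun γ => ?_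
  rw [jterm, jterm, show ((k : ℤ) : ℂ) = ((k : ℝ) : ℂ) by simp, jE_add, normSq_emb,
    show (((k : ℝ) * ((qh γ.1 γ.2 : ℤ) : ℝ) : ℝ) : ℂ) = ((k * qh γ.1 γ.2 : ℤ) : ℂ) by
      push_cast; ring,
    cexp_two_pi_int]

/-- A translation of `τ` by a multiple of three shifts the second characteristic of the dual
series. -/
lemma jacd_add_three (τ u v : ℂ) (k : ℤ) :
    jacd (τ + (3 * k : ℤ)) u v = jacd τ u (v + (3 * k : ℤ) * u) := by
  refine tsum_congr fun γ => ?_
  rw [jterm, jterm, show ((3 * k : ℤ) : ℂ) = ((3 * k : ℝ) : ℂ) by simp, jE_add,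
    show (3 * (k : ℝ)) * Complex.normSq (demb γ) = (k : ℝ) * (3 * Complex.normSq (demb γ)) by ring,
    normSq_demb,
    show (((k : ℝ) * ((qd γ.1 γ.2 : ℤ) : ℝ) : ℝ) : ℂ) = ((k * qd γ.1 γ.2 : ℤ) : ℂ) by
      push_cast; ring,
    cexp_two_pi_int]

/-- The parameter `2i/τ` of the Gaussian has positive real part. -/
lemma re_A_pos {τ : ℂ} (hτ : 0 < τ.im) : 0 < (2 * I / τ).re := by
  have h0 : τ ≠ 0 := fun h => by simp [h] at hτ
  rw [Complex.div_re]
  simp
  have := Complex.normSq_pos.2 h0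
  positivity

/-- `-1/τ` lies in the upper half plane. -/
lemma neg_inv_im_pos {τ : ℂ} (hτ : 0 < τ.im) : 0 < (-τ⁻¹).im := by
  have h0 : τ ≠ 0 := fun h => by simp [h] at hτ
  rw [Complex.neg_im, Complex.inv_im, neg_div, neg_neg]
  exact div_pos hτ (Complex.normSq_pos.2 h0)

/-- The theta series of the lattice converges absolutely. -/
lemma summable_jac {τ : ℂ} (hτ : 0 < τ.im) (u v : ℂ) :
    Summable fun γ => jterm τ u v (emb γ) := by
  have hA : 0 < (-2 * I * τ).re := by simp; linarith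
  refine ((summable_hterm hA
    (I * (-2 * τ * u.re - 2 * v.re))
    (I * (-2 * τ * (u.re / 2 + Real.sqrt 3 / 2 * u.im) - 2 *
      (v.re / 2 + Real.sqrt 3 / 2 * v.im)))).mul_left
      (cexp (2 * π * I * (τ * (Complex.normSq u : ℝ) + ((u * conj v).re : ℝ))))).congr fun γ => ?_
  rw [hterm, jterm, ← Complex.exp_add, jE]
  congr 1
  have e1 : Complex.normSq (emb γ - u)
      = ((qh γ.1 γ.2 : ℤ) : ℝ) - 2 * (emb γ * conj u).re + Complex.normSq u := by
    rw [Complex.normSq_sub, normSq_emb]; ring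
  rw [e1, Complex.mul_re (emb γ), Complex.mul_re (emb γ), Complex.conj_re, Complex.conj_im,
    Complex.conj_re, Complex.conj_im, emb_re, emb_im]
  simp only [qh]
  push_cast
  ring_nf

/-- The theta series of the dual lattice converges absolutely. -/
lemma summable_jacd {τ : ℂ} (hτ : 0 < τ.im) (u v : ℂ) :
    Summable fun γ => jterm τ u v (demb γ) := by
  have hA : 0 < (-2 * I * (τ / 3)).re := by simp; linarith
  have h3 : (Real.sqrt 3 : ℂ) ≠ 0 := by exact_mod_cast sqrt_three_ne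
  have h := ((summable_hterm hA
    (I * (-2 * τ * (u.re / 2 - u.im / (2 * Real.sqrt 3)) - 2 *
      (v.re / 2 - v.im / (2 * Real.sqrt 3))))
    (I * (2 * τ * (u.im / Real.sqrt 3) + 2 * (v.im / Real.sqrt 3)))).mul_left
      (cexp (2 * π * I * (τ * (Complex.normSq u : ℝ) + ((u * conj v).re : ℝ))))).comp_injective
      (i := fun v : ℤ × ℤ => (v.1, -v.2)) (fun a b h => by simpa [Prod.ext_iff] using h)
  refine h.congr fun γ => ?_
  rw [Function.comp_apply, hterm, jterm, ← Complex.exp_add, jE]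
  congr 1
  have e1 : Complex.normSq (demb γ - u)
      = ((qd γ.1 γ.2 : ℤ) : ℝ) / 3 - 2 * (demb γ * conj u).re + Complex.normSq u := by
    rw [Complex.normSq_sub, ← normSq_demb]; ring
  rw [e1, Complex.mul_re (demb γ), Complex.mul_re (demb γ), Complex.conj_re, Complex.conj_im,
    Complex.conj_re, Complex.conj_im, demb]
  simp only [qh, qd]
  push_cast
  field_simp
  ring_nf

/-- `jac` at `-1/τ` is a weight one multiple of the dual series at `τ`. -/
theorem jac_inv {τ : ℂ} (hτ : 0 < τ.im) (u v : ℂ) :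
    jac (-τ⁻¹) u v = -I * τ / (Real.sqrt 3 : ℂ) * jacd τ v (-u) := by
  have h0 : τ ≠ 0 := fun h => by simp [h] at hτ
  have h3 : (Real.sqrt 3 : ℂ) ≠ 0 := by exact_mod_cast sqrt_three_ne
  have h33 : (Real.sqrt 3 : ℂ) ^ 2 = 3 := by
    rw [sq, ← Complex.ofReal_mul, sqrt_three_sq]; norm_num
  have h333 : (Real.sqrt 3 : ℂ) ^ 3 = 3 * (Real.sqrt 3 : ℂ) := by rw [pow_succ, h33]
  have h3333 : (Real.sqrt 3 : ℂ) ^ 4 = 9 := by
    rw [show (4 : ℕ) = 2 * 2 from rfl, pow_mul, h33]; norm_num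
  set b₁ : ℂ := I * (2 * u.re / τ - 2 * v.re) with hb₁
  set b₂ : ℂ := I * (2 * (u.re / 2 + Real.sqrt 3 / 2 * u.im) / τ
    - 2 * (v.re / 2 + Real.sqrt 3 / 2 * v.im)) with hb₂
  set K : ℂ := cexp (2 * π * I * (-τ⁻¹ * (Complex.normSq u : ℝ) + ((u * conj v).re : ℝ))) with hK
  -- complete the square
  have e1 : ∀ γ : ℤ × ℤ, jterm (-τ⁻¹) u v (emb γ) = K * hterm (2 * I / τ) b₁ b₂ γ := fun γ => by
    rw [hK, hterm, jterm, ← Complex.exp_add, jE]
    congr 1
    have e : Complex.normSq (emb γ - u)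
        = ((qh γ.1 γ.2 : ℤ) : ℝ) - 2 * (emb γ * conj u).re + Complex.normSq u := by
      rw [Complex.normSq_sub, normSq_emb]; ring
    rw [e, Complex.mul_re (emb γ), Complex.mul_re (emb γ), Complex.conj_re, Complex.conj_im,
      Complex.conj_re, Complex.conj_im, emb_re, emb_im, hb₁, hb₂]
    simp only [qh]
    push_cast
    field_simp
    ring_nf
  have e2 : ∀ γ : ℤ × ℤ, K * dterm (2 * I / τ) b₁ b₂ γ = jterm τ v (-u) (demb (-γ)) := fun γ => by
    rw [hK, dterm, jterm, ← Complex.exp_add, jE]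
    congr 1
    rw [hb₁, hb₂, demb, Prod.fst_neg, Prod.snd_neg, Complex.normSq_apply, Complex.normSq_apply,
      map_neg, Complex.mul_re, Complex.mul_re, Complex.mul_re]
    simp only [qd, Complex.sub_re, Complex.sub_im, Complex.neg_re, Complex.neg_im, Complex.conj_re,
      Complex.conj_im]
    push_cast
    field_simp
    ring_nf
    simp only [I_sq, I_pow_four, h33]
    ring_nf
    simp only [h333, h3333]
    ring
  -- Poisson summation on the hexagonal lattice
  rw [jac, tsum_congr e1, tsum_mul_left, hex_poisson (re_A_pos hτ), jacd,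
    ← (Equiv.neg (ℤ × ℤ)).tsum_eq (fun γ => jterm τ v (-u) (demb γ))]
  simp only [Equiv.neg_apply]
  rw [← tsum_congr e2,
    tsum_mul_left]
  have e : ((2 / Real.sqrt 3 : ℝ) : ℂ) / (2 * I / τ) = -I * τ / (Real.sqrt 3 : ℂ) := by
    push_cast
    field_simp
    rw [I_sq]
    ring
  rw [e]
  ring

/-- The inversion law for the dual lattice. -/
theorem jacd_inv {τ : ℂ} (hτ : 0 < τ.im) (u v : ℂ) :
    jacd (-τ⁻¹) u v = -I * (Real.sqrt 3 : ℂ) * τ * jac τ (-v) u := by
  have h0 : τ ≠ 0 := fun h => by simp [h] at hτ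
  have h3 : (Real.sqrt 3 : ℂ) ≠ 0 := by exact_mod_cast sqrt_three_ne
  have h := jac_inv (neg_inv_im_pos hτ) (-v) u
  rw [show -(-τ⁻¹)⁻¹ = τ by rw [inv_neg, inv_inv, neg_neg], neg_neg] at h
  rw [h]
  field_simp
  rw [I_sq]
  ring

/-- Shifting the characteristics by lattice points. -/
theorem jac_shift (τ u v : ℂ) (μ ν : ℤ × ℤ) :
    jac τ (u - emb μ) (v - emb ν) = cexp (2 * π * I *
      (((emb μ * conj v).re - (u * conj (emb ν)).re - (emb μ * conj (emb ν)).re : ℝ) : ℂ)) *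
        jac τ u v := by
  rw [jac, jac, ← tsum_mul_left, ← (Equiv.subRight μ).tsum_eq]
  refine tsum_congr fun γ => ?_
  rw [jterm, jterm, ← Complex.exp_add, ← mul_add, Equiv.subRight_apply, emb_sub]
  set k : ℤ := 2 * γ.1 * ν.1 + γ.1 * ν.2 + γ.2 * ν.1 + 2 * γ.2 * ν.2 with hk
  rw [← cexp_two_pi_int k (_ + _)]
  congr 2
  rw [jE, jE, show emb γ - emb μ - (u - emb μ) = emb γ - u by ring]
  have hkk : ((k : ℤ) : ℝ) = 2 * (emb γ * conj (emb ν)).re := (pair_emb_emb γ ν).symm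
  rw [← Complex.ofReal_intCast k, hkk]
  simp only [map_sub, Complex.mul_re, Complex.sub_re, Complex.sub_im, Complex.conj_re,
    Complex.conj_im]
  push_cast
  ring

open Matrix

/-- `jac` transforms with weight one under `γ`. -/
def JLaw (γ : SpecialLinearGroup (Fin 2) ℤ) : Prop :=
  ∀ τ u v : ℂ, 0 < τ.im →
    0 < (((γ 0 0 : ℂ) * τ + γ 0 1) / ((γ 1 0 : ℂ) * τ + γ 1 1)).im ∧
    jac (((γ 0 0 : ℂ) * τ + γ 0 1) / ((γ 1 0 : ℂ) * τ + γ 1 1)) u v
      = ((γ 1 0 : ℂ) * τ + γ 1 1) *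
        jac τ ((γ 0 0 : ℂ) * u + (γ 1 0 : ℂ) * v) ((γ 0 1 : ℂ) * u + (γ 1 1 : ℂ) * v)

/-- The automorphy factor does not vanish on the upper half plane. -/
lemma denom_ne (γ : SpecialLinearGroup (Fin 2) ℤ) {τ : ℂ} (hτ : 0 < τ.im) :
    (γ 1 0 : ℂ) * τ + γ 1 1 ≠ 0 := by
  intro h
  have h1 := congrArg Complex.im h
  simp at h1
  rcases h1 with h1 | h1
  · have h2 : γ 1 1 = 0 := by
      rw [h1] at h; simpa using h
    have := γ.det_coe
    rw [Matrix.det_fin_two, h1, h2] at this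
    simp at this
  · linarith

/-- The entries of a product. -/
lemma coe_mul_entry (γ δ : SpecialLinearGroup (Fin 2) ℤ) (i j : Fin 2) :
    ((γ * δ) i j : ℂ) = (γ i 0 : ℂ) * δ 0 j + (γ i 1 : ℂ) * δ 1 j := by
  rw [SpecialLinearGroup.coe_mul, Matrix.mul_apply, Fin.sum_univ_two]; push_cast; ring

/-- A row of a product applied to `τ` is the row of the first factor applied to the transform of
`τ` by the second, times the denominator of the latter. -/
lemma row_mul_mob (γ δ : SpecialLinearGroup (Fin 2) ℤ) {τ : ℂ} (hτ : 0 < τ.im) (i : Fin 2) :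
    ((γ * δ) i 0 : ℂ) * τ + (γ * δ) i 1
      = ((γ i 0 : ℂ) * (((δ 0 0 : ℂ) * τ + δ 0 1) / ((δ 1 0 : ℂ) * τ + δ 1 1)) + γ i 1)
        * ((δ 1 0 : ℂ) * τ + δ 1 1) := by
  rw [add_mul, mul_assoc, div_mul_cancel₀ _ (denom_ne δ hτ), coe_mul_entry, coe_mul_entry]; ring

/-- The laws compose. -/
lemma JLaw.mul {γ δ : SpecialLinearGroup (Fin 2) ℤ} (hγ : JLaw γ) (hδ : JLaw δ) :
    JLaw (γ * δ) := by
  intro τ u v hτ
  obtain ⟨hσ, hjδ⟩ := hδ τ ((γ 0 0 : ℂ) * u + (γ 1 0 : ℂ) * v)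
    ((γ 0 1 : ℂ) * u + (γ 1 1 : ℂ) * v) hτ
  set σ := ((δ 0 0 : ℂ) * τ + δ 0 1) / ((δ 1 0 : ℂ) * τ + δ 1 1) with hσdef
  obtain ⟨hρ, hjγ⟩ := hγ σ u v hσ
  rw [row_mul_mob γ δ hτ, row_mul_mob γ δ hτ, mul_div_mul_right _ _ (denom_ne δ hτ)]
  refine ⟨hρ, ?_⟩
  rw [hjγ, hjδ, ← mul_assoc]
  congr 2 <;> simp only [coe_mul_entry] <;> ring

/-- Translations. -/
def Tk (k : ℤ) : SpecialLinearGroup (Fin 2) ℤ := ⟨!![1, k; 0, 1], by simp [Matrix.det_fin_two]⟩

/-- Lower unipotents divisible by three. -/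
def Uk (k : ℤ) : SpecialLinearGroup (Fin 2) ℤ := ⟨!![1, 0; 3 * k, 1], by simp [Matrix.det_fin_two]⟩

/-- The law holds for translations. -/
lemma jlaw_Tk (k : ℤ) : JLaw (Tk k) := fun τ u v hτ => by
  refine ⟨by simp [Tk]; exact hτ, ?_⟩
  simp [Tk]
  rw [jac_add_int]
  congr 1
  ring

/-- A lower unipotent factors through inversion and translation. -/
lemma exists_lowU_eq {τ : ℂ} (hτ : 0 < τ.im) (k : ℤ) : ∃ σ : ℂ,
    σ = -τ⁻¹ + ((3 * -k : ℤ) : ℂ) ∧ 0 < σ.im ∧ τ / ((3 * k : ℂ) * τ + 1) = -σ⁻¹ := by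
  have h0 : τ ≠ 0 := fun h => by simp [h] at hτ
  refine ⟨_, rfl, ?_, ?_⟩
  · rw [Complex.add_im, Complex.intCast_im, add_zero]; exact neg_inv_im_pos hτ
  · have hs : -τ⁻¹ + ((3 * -k : ℤ) : ℂ) = -((3 * k : ℂ) * τ + 1) / τ := by
      push_cast; field_simp; ring
    rw [hs, inv_div, div_neg, neg_neg]

/-- Lower unipotents divisible by three satisfy the law. -/
lemma jlaw_Uk (k : ℤ) : JLaw (Uk k) := fun τ u v hτ => by
  have h0 : τ ≠ 0 := fun h => by simp [h] at hτ
  have h3 : (Real.sqrt 3 : ℂ) ≠ 0 := by exact_mod_cast sqrt_three_ne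
  obtain ⟨σ, hσ, hσim, e⟩ := exists_lowU_eq hτ k
  refine ⟨?_, ?_⟩
  · simp [Uk]
    rw [e]
    exact neg_inv_im_pos hσim
  · simp [Uk]
    rw [e, jac_inv hσim, hσ, jacd_add_three, jacd_inv hτ, ← mul_assoc]
    congr 2
    · push_cast
      field_simp
      ring_nf
      rw [I_sq]
      ring
    · push_cast; ring

/-- `Γ₁(3)` is generated by `Tk` and `Uk`. -/
theorem gamma1_three_induction {P : SpecialLinearGroup (Fin 2) ℤ → Prop}
    (hT : ∀ k, P (Tk k)) (hU : ∀ k, P (Uk k)) (hmul : ∀ γ δ, P γ → P δ → P (γ * δ)) :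
    ∀ (n : ℕ) (γ : SpecialLinearGroup (Fin 2) ℤ), (γ 1 0).natAbs ≤ n →
      (γ 0 0 : ZMod 3) = 1 → (γ 1 0 : ZMod 3) = 0 → P γ := by
  intro n
  induction n using Nat.strong_induction_on with
  | _ n ih =>
  intro γ hn ha hc
  have hdet : γ 0 0 * γ 1 1 - γ 0 1 * γ 1 0 = 1 := by rw [← Matrix.det_fin_two]; exact γ.det_coe
  -- lower left entry `0`: the matrix is a translation
  by_cases hc0 : γ 1 0 = 0
  · rw [hc0, mul_zero, sub_zero] at hdet
    have h1 : γ 0 0 = 1 := by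
      rcases Int.eq_one_or_neg_one_of_mul_eq_one hdet with h | h
      · exact h
      · rw [h] at ha; exact absurd ha (by decide)
    have h2 : γ 1 1 = 1 := by rw [h1, one_mul] at hdet; exact hdet
    have : γ = Tk (γ 0 1) := by
      ext i j
      fin_cases i <;> fin_cases j <;> simp [Tk, h1, h2, hc0]
    rw [this]
    exact hT _
  · set a := γ 0 0 with hadef
    set c := γ 1 0 with hcdef
    -- reduce the first entry modulo `c`
    obtain ⟨k, hk⟩ : ∃ k, 2 * (a + k * c).natAbs ≤ c.natAbs := by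
      refine ⟨-((a - Int.bmod a c.natAbs) / c), ?_⟩
      have hdvd : c ∣ a - Int.bmod a c.natAbs := by
        rw [← Int.natAbs_dvd]
        exact ⟨Int.bdiv a c.natAbs, by linarith [Int.bmod_add_bdiv a c.natAbs]⟩
      have hmul : (a - Int.bmod a c.natAbs) / c * c = a - Int.bmod a c.natAbs :=
        Int.ediv_mul_cancel hdvd
      rw [neg_mul, hmul, show a + -(a - Int.bmod a c.natAbs) = Int.bmod a c.natAbs by ring]
      have hpos : 0 < c.natAbs := Int.natAbs_pos.2 hc0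
      have h1 := Int.bmod_lt (x := a) hpos
      have h2 := Int.le_bmod (x := a) hpos
      omega
    set a' := a + k * c with ha'
    have ha3 : (a' : ZMod 3) = 1 := by rw [ha']; push_cast; rw [hc, ha]; ring
    have ha0 : a' ≠ 0 := fun h => by rw [h] at ha3; exact absurd ha3 (by decide)
    -- reduce `c` modulo `3 a'`
    obtain ⟨l, hl⟩ : ∃ l, 2 * (c + 3 * l * a').natAbs ≤ 3 * a'.natAbs := by
      have hne : 3 * a' ≠ 0 := mul_ne_zero (by norm_num) ha0
      refine ⟨-((c - Int.bmod c (3 * a').natAbs) / (3 * a')), ?_⟩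
      have hdvd : 3 * a' ∣ c - Int.bmod c (3 * a').natAbs := by
        rw [← Int.natAbs_dvd]
        exact ⟨Int.bdiv c (3 * a').natAbs, by linarith [Int.bmod_add_bdiv c (3 * a').natAbs]⟩
      have hmul := Int.ediv_mul_cancel hdvd
      rw [show c + 3 * -((c - Int.bmod c (3 * a').natAbs) / (3 * a')) * a'
        = Int.bmod c (3 * a').natAbs by linear_combination (-1 : ℤ) * hmul]
      have hpos : 0 < (3 * a').natAbs := Int.natAbs_pos.2 hne
      have h1 := Int.bmod_lt (x := c) hpos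
      have h2 := Int.le_bmod (x := c) hpos
      have h3 : (3 * a').natAbs = 3 * a'.natAbs := Int.natAbs_mul 3 a'
      omega
    set δ := Uk l * Tk k * γ with hδ
    have hUm : ((Uk l * Tk k : SpecialLinearGroup (Fin 2) ℤ) : Matrix (Fin 2) (Fin 2) ℤ)
        = !![1, k; 3 * l, 3 * l * k + 1] := by
      rw [SpecialLinearGroup.coe_mul]
      simp [Uk, Tk]
    have hδe : ∀ i j, δ i j =
        (!![1, k; 3 * l, 3 * l * k + 1] : Matrix (Fin 2) (Fin 2) ℤ) i 0 * γ 0 j
        + (!![1, k; 3 * l, 3 * l * k + 1] : Matrix (Fin 2) (Fin 2) ℤ) i 1 * γ 1 j := fun i j => by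
      rw [hδ, SpecialLinearGroup.coe_mul, hUm, Matrix.mul_apply, Fin.sum_univ_two]
    have hδ00 : δ 0 0 = a' := by rw [hδe, ha', hadef, hcdef]; simp
    have hδ10 : δ 1 0 = c + 3 * l * a' := by rw [hδe, ha', hadef, hcdef]; simp; ring
    -- the lower left entry of `δ` is smaller, so induction applies
    have hlt : (δ 1 0).natAbs < n := by
      rw [hδ10]
      have : 0 < c.natAbs := Int.natAbs_pos.2 hc0
      omega
    have hlaw := ih _ hlt δ le_rfl (by rw [hδ00]; exact ha3) (by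
      rw [hδ10]; push_cast; rw [hc, show (3 : ZMod 3) = 0 from rfl]; ring)
    -- undo the two reductions
    have hγ : γ = Tk (-k) * (Uk (-l) * δ) := by
      have h1 : Tk (-k) * Uk (-l) * (Uk l * Tk k) = 1 := by
        ext i j
        fin_cases i <;> fin_cases j <;>
          simp [Tk, Uk, SpecialLinearGroup.coe_mul]; ring
      rw [hδ, ← mul_assoc, ← mul_assoc (Tk (-k) * Uk (-l)), h1, one_mul]
    rw [hγ]
    exact hmul _ _ (hT _) (hmul _ _ (hU _) hlaw)

/-- **The transformation law under `Γ₁(3)`.** -/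
theorem jlaw_of_mem {γ : SpecialLinearGroup (Fin 2) ℤ} (ha : (γ 0 0 : ZMod 3) = 1)
    (hc : (γ 1 0 : ZMod 3) = 0) : JLaw γ :=
  gamma1_three_induction jlaw_Tk jlaw_Uk (fun _ _ h₁ h₂ => h₁.mul h₂) _ γ le_rfl ha hc

end Fermat.LT3
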