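import Mathlib.Analysis.SpecialFunctions.Gaussian.PoissonSummation
import Mathlib.NumberTheory.ModularForms.JacobiTheta.TwoVariable
import Mathlib.Analysis.Normed.Ring.InfiniteSum

/-!
# Poisson summation for the hexagonal quadratic form

`hex_poisson` is the formula, for the forms `qh` and its dual `qd`.
-/

set_option autoImplicit false
open Complex
open scoped Real

namespace Fermat.LT3

/-- `x² + x y + y²`. -/
def qh {R : Type*} [CommRing R] (x y : R) : R := x ^ 2 + x * y + y ^ 2

/-- `x² - x y + y²`. -/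
def qd {R : Type*} [CommRing R] (x y : R) : R := x ^ 2 - x * y + y ^ 2

/-- A term of a one dimensional Gaussian series. -/
noncomputable def gterm (a b : ℂ) (n : ℤ) : ℂ := cexp (-π * a * n ^ 2 + 2 * π * b * n)

/-- A one-dimensional Gaussian series converges absolutely. -/
lemma summable_gterm {a : ℂ} (ha : 0 < a.re) (b : ℂ) : Summable (gterm a b) := by
  have h : Summable (jacobiTheta₂_term · (-I * b) (I * a)) :=
    (summable_jacobiTheta₂_term_iff _ _).2 (by simpa using ha)
  refine h.congr fun n => ?_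
  rw [jacobiTheta₂_term, gterm]
  congr 1
  ring_nf
  rw [I_sq]
  ring

/-- The absolute value of a Gaussian term. -/
lemma norm_gterm (a b : ℂ) (n : ℤ) :
    ‖gterm a b n‖ = Real.exp (-π * a.re * n ^ 2 + 2 * π * b.re * n) := by
  rw [gterm, Complex.norm_exp]
  congr 1
  simp [← Complex.ofReal_intCast, pow_two]

/-- A term of the hexagonal series. -/
noncomputable def hterm (A b₁ b₂ : ℂ) (v : ℤ × ℤ) : ℂ :=
  cexp (-π * A * qh (v.1 : ℂ) v.2 + 2 * π * (b₁ * v.1 + b₂ * v.2))

/-- The hexagonal series converges absolutely. -/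
lemma summable_norm_hterm {A : ℂ} (hA : 0 < A.re) (b₁ b₂ : ℂ) :
    Summable fun v => ‖hterm A b₁ b₂ v‖ := by
  have h : Summable fun v : ℤ × ℤ =>
      ‖gterm ((A.re / 2 : ℝ) : ℂ) b₁ v.1‖ * ‖gterm ((A.re / 2 : ℝ) : ℂ) b₂ v.2‖ :=
    Summable.mul_of_nonneg (summable_gterm (by simpa using hA) b₁).norm
      (summable_gterm (by simpa using hA) b₂).norm
      (fun _ => norm_nonneg _) (fun _ => norm_nonneg _)
  refine h.of_nonneg_of_le (fun _ => norm_nonneg _) fun v => ?_
  rw [norm_gterm, norm_gterm, ← Real.exp_add, hterm, Complex.norm_exp]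
  refine Real.exp_le_exp.2 ?_
  obtain ⟨m, n⟩ := v
  simp [qh, ← Complex.ofReal_intCast, pow_two]
  nlinarith [mul_nonneg (mul_nonneg Real.pi_pos.le hA.le) (sq_nonneg ((m : ℝ) + n))]

/-- The hexagonal series converges. -/
lemma summable_hterm {A : ℂ} (hA : 0 < A.re) (b₁ b₂ : ℂ) : Summable (hterm A b₁ b₂) :=
  (summable_norm_hterm hA b₁ b₂).of_norm

/-- The summand at `v` of the Poisson dual of the hexagonal Gaussian. -/
noncomputable def dterm (A b₁ b₂ : ℂ) (v : ℤ × ℤ) : ℂ :=
  cexp (-(4 * π / (3 * A)) * qd ((v.1 : ℂ) + I * b₁) ((v.2 : ℂ) + I * b₂))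

/-- The inverse of a number with positive real part has positive real part. -/
lemma re_inv_pos {A : ℂ} (hA : 0 < A.re) : 0 < (A⁻¹).re := by
  rw [Complex.inv_re]
  exact div_pos hA (Complex.normSq_pos.2 fun h => by simp [h] at hA)

/-- The dual hexagonal series converges absolutely. -/
lemma summable_dterm {A : ℂ} (hA : 0 < A.re) (b₁ b₂ : ℂ) : Summable (dterm A b₁ b₂) := by
  have hA' : 0 < (4 / (3 * A)).re := by
    rw [show (4 : ℂ) / (3 * A) = ((4 / 3 : ℝ) : ℂ) * A⁻¹ by push_cast; field_simp,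
      Complex.re_ofReal_mul]
    exact mul_pos (by norm_num) (re_inv_pos hA)
  have hA0 : A ≠ 0 := fun h => by simp [h] at hA
  have h := ((summable_hterm hA' ((2 / (3 * A)) * (I * b₂ - 2 * I * b₁))
    ((2 / (3 * A)) * (2 * I * b₂ - I * b₁))).mul_left
      (cexp (-(4 * π / (3 * A)) * qd (I * b₁) (I * b₂)))).comp_injective
    (i := fun v : ℤ × ℤ => (v.1, -v.2)) (fun v w h => by simpa [Prod.ext_iff] using h)
  refine h.congr fun v => ?_
  simp only [Function.comp_apply, hterm, dterm, ← Complex.exp_add]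
  congr 1
  simp only [qh, qd]
  push_cast
  field_simp
  ring

/-- The product of the square roots of `A` and `3A/4` is `(√3/2) A`. -/
lemma cpow_half_mul {A : ℂ} (hA : A ≠ 0) :
    A ^ (1 / 2 : ℂ) * (((3 / 4 : ℝ) : ℂ) * A) ^ (1 / 2 : ℂ) = ((Real.sqrt 3 / 2 : ℝ) : ℂ) * A := by
  have h34 : Real.sqrt (3 / 4) = Real.sqrt 3 / 2 := by
    rw [Real.sqrt_div (by norm_num), show (4 : ℝ) = 2 ^ 2 by norm_num, Real.sqrt_sq (by norm_num)]
  have h1 : ((3 / 4 : ℝ) : ℂ) * A ≠ 0 := mul_ne_zero (by norm_num) hA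
  rw [Complex.cpow_def_of_ne_zero hA, Complex.cpow_def_of_ne_zero h1, ← Complex.exp_add,
    Complex.log_ofReal_mul (by norm_num) hA]
  rw [show Complex.log A * (1 / 2) + ((Real.log (3 / 4) : ℂ) + Complex.log A) * (1 / 2)
      = ((Real.log (3 / 4) / 2 : ℝ) : ℂ) + Complex.log A by push_cast; ring,
    Complex.exp_add, Complex.exp_log hA, ← Complex.ofReal_exp, ← h34, Real.sqrt_eq_rpow,
    Real.rpow_def_of_pos (by norm_num)]
  ring_nf

/-- **Poisson summation on the hexagonal lattice.** -/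
theorem hex_poisson {A : ℂ} (hA : 0 < A.re) (b₁ b₂ : ℂ) :
    ∑' v, hterm A b₁ b₂ v = ((2 / Real.sqrt 3 : ℝ) : ℂ) / A * ∑' v, dterm A b₁ b₂ v := by
  have hA0 : A ≠ 0 := fun h => by simp [h] at hA
  have hB : 0 < (((3 / 4 : ℝ) : ℂ) * A).re := by
    rw [Complex.re_ofReal_mul]; exact mul_pos (by norm_num) hA
  set c : ℂ := b₂ - b₁ / 2 with hc
  -- after the first summation
  let mid : ℤ × ℤ → ℂ := fun w =>
    cexp (-π / A * ((w.1 : ℂ) + I * b₁) ^ 2) * gterm (((3 / 4 : ℝ) : ℂ) * A) (c + I * w.1 / 2) w.2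
  have hmid : Summable mid := by
    have h1 : Summable fun p : ℤ => ‖cexp (-π / A * ((p : ℂ) + I * b₁) ^ 2)‖ := by
      have hA1 : 0 < (A⁻¹).re := re_inv_pos hA
      refine (((summable_gterm hA1 (-(I * b₁) / A)).mul_left
        (cexp (π * b₁ ^ 2 / A))).norm).congr fun p => ?_
      rw [gterm, ← Complex.exp_add]
      congr 2
      field_simp
      ring_nf
      rw [I_sq]
      ring
    have h2 : Summable fun n : ℤ => ‖gterm (((3 / 4 : ℝ) : ℂ) * A) c n‖ :=
      (summable_gterm hB c).norm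
    refine Summable.of_norm ((Summable.mul_of_nonneg h1 h2 (fun _ => norm_nonneg _)
      (fun _ => norm_nonneg _)).congr fun w => ?_)
    simp only [mid, norm_mul]
    rw [norm_gterm, norm_gterm]
    congr 2
    simp
  -- Poisson summation in the first variable
  have step1 : ∀ n : ℤ, ∑' m : ℤ, hterm A b₁ b₂ (m, n)
      = 1 / A ^ (1 / 2 : ℂ) * ∑' p : ℤ, mid (p, n) := by
    intro n
    have e : ∀ m : ℤ, hterm A b₁ b₂ (m, n)
        = cexp (-π * A * n ^ 2 + 2 * π * b₂ * n) *
          cexp (-π * A * m ^ 2 + 2 * π * (b₁ - A * n / 2) * m) := fun m => by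
      rw [hterm, ← Complex.exp_add]
      congr 1
      simp only [qh]
      ring
    simp only [e]
    rw [tsum_mul_left, Complex.tsum_exp_neg_quadratic hA, mul_left_comm, ← tsum_mul_left]
    congr 1
    refine tsum_congr fun p => ?_
    simp only [mid, gterm, ← Complex.exp_add]
    congr 1
    rw [hc]
    push_cast
    field_simp
    ring_nf
    rw [I_sq]
    ring
  -- Poisson summation in the second variable
  have step2 : ∀ p : ℤ, ∑' n : ℤ, mid (p, n)
      = 1 / (((3 / 4 : ℝ) : ℂ) * A) ^ (1 / 2 : ℂ) * ∑' q : ℤ, dterm A b₁ b₂ (p, q) := by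
    intro p
    simp only [mid, gterm]
    rw [tsum_mul_left, Complex.tsum_exp_neg_quadratic hB, mul_left_comm, ← tsum_mul_left]
    congr 1
    refine tsum_congr fun q => ?_
    rw [dterm, ← Complex.exp_add]
    congr 1
    simp only [qd, hc]
    push_cast
    field_simp
    ring_nf
    simp only [I_sq, I_pow_three]
    ring_nf
    simp only [I_pow_four]
    ring
  -- combine the two steps
  rw [(summable_hterm hA b₁ b₂).tsum_prod,
    Summable.tsum_comm (f := fun n m => hterm A b₁ b₂ (m, n))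
      ((summable_hterm hA b₁ b₂).comp_injective (i := fun v : ℤ × ℤ => (v.2, v.1))
        Prod.swap_injective)]
  simp only [step1]
  rw [tsum_mul_left, Summable.tsum_comm (f := fun p n => mid (p, n)) hmid]
  simp only [step2]
  rw [tsum_mul_left, ← (summable_dterm hA b₁ b₂).tsum_prod, ← mul_assoc]
  congr 1
  rw [one_div_mul_one_div, cpow_half_mul hA0]
  have : ((Real.sqrt 3 : ℝ) : ℂ) ≠ 0 := by exact_mod_cast (Real.sqrt_ne_zero'.2 (by norm_num))
  push_cast
  field_simp

end Fermat.LT3
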