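import Fermat.Agent.LT3.Theta.Bin

/-!
# The Weil representation of the binary norm form modulo `E`

`wop γ` is the operator on functions on `(ℤ/E)²` through which `γ ∈ Γ₁(3)` acts on the binary theta
series; it is an antihomomorphism, with explicit values on `Γ₀(E)` and at elements inverse modulo
`E`, and it commutes with the norm one units.
-/

set_option autoImplicit false
open Complex Matrix
open scoped ComplexConjugate MatrixGroups

namespace Fermat.LT3

variable {E : ℕ} [NeZero E]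

/-- Product of classes. -/
def cmul (x y : CP E) : CP E := (x.1 * y.1 - x.2 * y.2, x.1 * y.2 + x.2 * y.1 + x.2 * y.2)

/-- Conjugate class. -/
def cconj (x : CP E) : CP E := (x.1 + x.2, -x.2)

/-- The bilinear form. -/
def cpair (x y : CP E) : ZMod E :=
  2 * x.1 * y.1 + x.1 * y.2 + x.2 * y.1 + 2 * x.2 * y.2

omit [NeZero E] in
/-- The bilinear form is the polarisation of the norm. -/
lemma cpair_eq_sub (x y : CP E) : cpair x y = cnorm (x + y) - cnorm x - cnorm y := by
  simp [cpair, cnorm, qh]; ring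

omit [NeZero E] in
/-- The norm is multiplicative. -/
lemma cnorm_cmul (x y : CP E) : cnorm (cmul x y) = cnorm x * cnorm y := by
  simp [cnorm, cmul, qh]; ring

omit [NeZero E] in
/-- The bilinear form is multiplied by the norm of `u` under multiplication by `u`. -/
lemma cpair_cmul (u x y : CP E) : cpair (cmul u x) (cmul u y) = cnorm u * cpair x y := by
  simp [cnorm, cmul, cpair, qh]; ring

omit [NeZero E] in
/-- Multiplication by the conjugate undoes multiplication by a norm one class. -/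
lemma cmul_cconj_cancel {u : CP E} (hu : cnorm u = 1) (x : CP E) :
    cmul (cconj u) (cmul u x) = x := by
  have h : u.1 ^ 2 + u.1 * u.2 + u.2 ^ 2 = 1 := hu
  refine Prod.ext ?_ ?_
  · simp only [cmul, cconj]; linear_combination x.1 * h
  · simp only [cmul, cconj]; linear_combination x.2 * h

omit [NeZero E] in
/-- A class and its conjugate have the same norm. -/
lemma cnorm_cconj (u : CP E) : cnorm (cconj u) = cnorm u := by simp [cnorm, cconj, qh]; ring

omit [NeZero E] in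
/-- Conjugation of classes is an involution. -/
lemma cconj_cconj (u : CP E) : cconj (cconj u) = u := by simp [cconj]

omit [NeZero E] in
/-- Multiplication by a norm one class undoes multiplication by its conjugate. -/
lemma cmul_cancel_cconj {u : CP E} (hu : cnorm u = 1) (x : CP E) :
    cmul u (cmul (cconj u) x) = x := by
  have := cmul_cconj_cancel (u := cconj u) (by rw [cnorm_cconj, hu]) x
  rwa [cconj_cconj] at this

/-- Multiplication by a norm one class as a bijection. -/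
def cmulEquiv (u : CP E) (hu : cnorm u = 1) : CP E ≃ CP E :=
  ⟨cmul u, cmul (cconj u), cmul_cconj_cancel hu, cmul_cancel_cconj hu⟩

/-- The operators of the law. -/
abbrev COp (E : ℕ) : Type := (CP E → ℂ) →ₗ[ℂ] (CP E → ℂ)

/-- `R` is the operator of `γ`. -/
def BLaw (γ : SL(2, ℤ)) (R : COp E) : Prop :=
  ∀ (φ : CP E → ℂ) (τ u v : ℂ), 0 < τ.im →
    bin φ (((γ 0 0 : ℂ) * τ + γ 0 1) / ((γ 1 0 : ℂ) * τ + γ 1 1)) u v
      = ((γ 1 0 : ℂ) * τ + γ 1 1) * bin (R φ) τ
          ((γ 0 0 : ℂ) * u + (γ 1 0 : ℂ) * v) ((γ 0 1 : ℂ) * u + (γ 1 1 : ℂ) * v)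

/-- The imaginary part of a Möbius transform. -/
lemma im_mob_eq (γ : SL(2, ℤ)) (τ : ℂ) :
    (((γ 0 0 : ℂ) * τ + γ 0 1) / ((γ 1 0 : ℂ) * τ + γ 1 1)).im
      = τ.im / Complex.normSq ((γ 1 0 : ℂ) * τ + γ 1 1) := by
  have hdet : ((γ 0 0 : ℝ) * γ 1 1 - γ 0 1 * γ 1 0) = 1 := by
    have := γ.det_coe
    rw [Matrix.det_fin_two] at this
    exact_mod_cast this
  rw [Complex.div_im, ← sub_div]
  congr 1
  simp
  linear_combination τ.im * hdet

/-- Möbius transforms preserve the upper half plane. -/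
lemma im_mob (γ : SL(2, ℤ)) {τ : ℂ} (hτ : 0 < τ.im) :
    0 < (((γ 0 0 : ℂ) * τ + γ 0 1) / ((γ 1 0 : ℂ) * τ + γ 1 1)).im := by
  rw [im_mob_eq]
  exact div_pos hτ (Complex.normSq_pos.2 (denom_ne γ hτ))

omit [NeZero E] in
/-- The operators of the law compose in reverse order. -/
lemma BLaw.mul {γ δ : SL(2, ℤ)} {R S : COp E} (hR : BLaw γ R) (hS : BLaw δ S) :
    BLaw (γ * δ) (S ∘ₗ R) := by
  intro φ τ u v hτ
  set σ := ((δ 0 0 : ℂ) * τ + δ 0 1) / ((δ 1 0 : ℂ) * τ + δ 1 1) with hσdef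
  have hσ : 0 < σ.im := im_mob δ hτ
  rw [row_mul_mob γ δ hτ, row_mul_mob γ δ hτ, mul_div_mul_right _ _ (denom_ne δ hτ), hR φ σ u v hσ,
    hσdef, hS (R φ) τ _ _ hτ, ← mul_assoc,
    LinearMap.comp_apply]
  congr 2 <;> simp only [coe_mul_entry] <;> ring

/-- The twisted theta series respects differences. -/
lemma bin_sub (φ ψ : CP E → ℂ) {τ : ℂ} (hτ : 0 < τ.im) (u v : ℂ) :
    bin (φ - ψ) τ u v = bin φ τ u v - bin ψ τ u v := by
  rw [bin, bin, bin, ← Summable.tsum_sub (summable_bin φ hτ u v) (summable_bin ψ hτ u v)]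
  exact tsum_congr fun γ => by simp [sub_mul]

/-- The operator of an element is unique. -/
lemma BLaw.unique {γ : SL(2, ℤ)} {R S : COp E} (hR : BLaw γ R) (hS : BLaw γ S) : R = S := by
  refine LinearMap.ext fun φ => sub_eq_zero.1 (bin_injective fun τ u v hτ => ?_)
  have hdet : (γ 0 0 : ℂ) * γ 1 1 - γ 0 1 * γ 1 0 = 1 := by
    have := γ.det_coe
    rw [Matrix.det_fin_two] at this
    exact_mod_cast this
  have h := (hR φ τ ((γ 1 1 : ℂ) * u - (γ 1 0 : ℂ) * v) (-(γ 0 1 : ℂ) * u +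
    (γ 0 0 : ℂ) * v) hτ).symm.trans (hS φ τ _ _ hτ)
  rw [show (γ 0 0 : ℂ) * ((γ 1 1 : ℂ) * u - (γ 1 0 : ℂ) * v)
      + (γ 1 0 : ℂ) * (-(γ 0 1 : ℂ) * u + (γ 0 0 : ℂ) * v) = u by linear_combination u * hdet,
    show (γ 0 1 : ℂ) * ((γ 1 1 : ℂ) * u - (γ 1 0 : ℂ) * v)
      + (γ 1 1 : ℂ) * (-(γ 0 1 : ℂ) * u + (γ 0 0 : ℂ) * v) = v by linear_combination v * hdet] at h
  rw [bin_sub _ _ hτ, sub_eq_zero]
  exact mul_left_cancel₀ (denom_ne γ hτ) h

/-- `diagOp` as a linear map. -/
noncomputable def diagLin (b e : ZMod E) : COp E where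
  toFun := diagOp b e
  map_add' φ ψ := by funext x; simp [diagOp, mul_add]
  map_smul' c φ := by funext x; simp [diagOp, mul_left_comm]

/-- The value of `diagLin b e φ` at a class. -/
@[simp] lemma diagLin_apply (b e : ZMod E) (φ : CP E → ℂ) (x : CP E) :
    diagLin b e φ x = ee E (e * b * cnorm x) * φ (e * x.1, e * x.2) := rfl

/-- The operator of `Uk k`. -/
noncomputable def lowLin (k : ℤ) : COp E where
  toFun φ := fun x =>
    ((E : ℂ) ^ 2)⁻¹ * ftb (fun p => ee E (((-k : ℤ) : ZMod E) * cdual p) * ftd φ p) x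
  map_add' φ ψ := by
    funext x
    simp only [ftb, ftd, Pi.add_apply, ← mul_add, ← Finset.sum_add_distrib]
    congr 1
    refine Finset.sum_congr rfl fun p _ => ?_
    simp only [Finset.mul_sum, Finset.sum_mul, ← Finset.sum_add_distrib]
    exact Finset.sum_congr rfl fun y _ => by ring
  map_smul' c φ := by
    funext x
    simp only [ftb, ftd, Pi.smul_apply, smul_eq_mul, RingHom.id_apply, Finset.mul_sum,
      Finset.sum_mul]
    exact Finset.sum_congr rfl fun p _ => Finset.sum_congr rfl fun y _ => by ring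

/-- Lower unipotents act by their operators. -/
lemma blaw_Uk (k : ℤ) : BLaw (E := E) (Uk k) (lowLin k) := by
  intro φ τ u v hτ
  have h0 : τ ≠ 0 := fun h => by simp [h] at hτ
  have hE : (E : ℂ) ≠ 0 := by exact_mod_cast NeZero.ne E
  have h3 : (Real.sqrt 3 : ℂ) ≠ 0 := by exact_mod_cast sqrt_three_ne
  obtain ⟨σ, hσ, hσim, e⟩ := exists_lowU_eq hτ k
  have hsc : bin (lowLin k φ) τ (u + 3 * (k : ℂ) * v) v = ((E : ℂ) ^ 2)⁻¹ *
      bin (ftb fun p => ee E (((-k : ℤ) : ZMod E) * cdual p) * ftd φ p) τ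
          (u + 3 * (k : ℂ) * v) v := by
    rw [bin, bin, ← tsum_mul_left]
    exact tsum_congr fun γ => by simp [lowLin, mul_assoc]
  simp [Uk]
  rw [hsc, e, bin_inv φ hσim, hσ, bind_add_three, bind_inv _ hτ]
  rw [show -(-u + ((3 * -k : ℤ) : ℂ) * v) = u + 3 * (k : ℂ) * v by push_cast; ring, ← mul_assoc,
    ← mul_assoc]
  congr 1
  push_cast
  field_simp
  ring_nf
  rw [I_sq]
  ring

/-- Membership in `Γ₁(3)`. -/
def InG3 (γ : SL(2, ℤ)) : Prop := (γ 0 0 : ZMod 3) = 1 ∧ (γ 1 0 : ZMod 3) = 0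

/-- `Γ₁(3)` is closed under products. -/
lemma InG3.mul {γ δ : SL(2, ℤ)} (hγ : InG3 γ) (hδ : InG3 δ) : InG3 (γ * δ) := by
  obtain ⟨h1, h2⟩ := hγ
  obtain ⟨h3, h4⟩ := hδ
  refine ⟨?_, ?_⟩ <;>
    rw [SpecialLinearGroup.coe_mul, Matrix.mul_apply, Fin.sum_univ_two] <;>
    push_cast <;> simp [h1, h2, h3, h4]

variable [Fact (Nat.Coprime E 3)]

/-- The law for an element of `Γ₁(3)` with lower left entry divisible by `E`. -/
lemma blaw_gamma0 {γ : SL(2, ℤ)} (hγ : InG3 γ) (hc : (γ 1 0 : ZMod E) = 0) :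
    BLaw γ (diagLin (γ 0 1 : ZMod E) (γ 1 1 : ZMod E)) :=
  fun φ _ u v hτ => bin_gamma0 Fact.out hγ.1 hγ.2 hc φ hτ u v

/-- Every element of `Γ₁(3)` has an operator. -/
lemma exists_blaw {γ : SL(2, ℤ)} (hγ : InG3 γ) : ∃ R : COp E, BLaw γ R :=
  gamma1_three_induction (P := fun γ => ∃ R : COp E, BLaw γ R)
    (fun k => ⟨_, blaw_gamma0 (γ := Tk k) (by constructor <;> simp [Tk]) (by simp [Tk])⟩)
    (fun k => ⟨_, blaw_Uk k⟩) (fun _ _ ⟨R, hR⟩ ⟨S, hS⟩ => ⟨_, hR.mul hS⟩) _ γ le_rfl hγ.1 hγ.2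

open scoped Classical in
/-- **The operator of `γ`.** Some operator satisfying the law `BLaw` of `γ`, zero if there is
none. -/
noncomputable def wop (γ : SL(2, ℤ)) : COp E :=
  if h : ∃ R : COp E, BLaw γ R then h.choose else 0

/-- The operator of `γ` satisfies the law. -/
lemma blaw_wop {γ : SL(2, ℤ)} (hγ : InG3 γ) : BLaw γ (wop (E := E) γ) := by
  rw [wop, dif_pos (exists_blaw hγ)]
  exact (exists_blaw hγ).choose_spec

/-- The operators compose in reverse order. -/
lemma wop_mul {γ δ : SL(2, ℤ)} (hγ : InG3 γ) (hδ : InG3 δ) :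
    wop (E := E) (γ * δ) = wop δ ∘ₗ wop γ :=
  (blaw_wop (hγ.mul hδ)).unique ((blaw_wop hγ).mul (blaw_wop hδ))

/-- The operator of an element with lower left entry divisible by `E` is diagonal. -/
lemma wop_gamma0 {γ : SL(2, ℤ)} (hγ : InG3 γ) (hc : (γ 1 0 : ZMod E) = 0) :
    wop γ = diagLin (γ 0 1 : ZMod E) (γ 1 1 : ZMod E) :=
  (blaw_wop hγ).unique (blaw_gamma0 hγ hc)

/-- The lower unipotents are in `Γ₁(3)`. -/
lemma inG3_Uk (k : ℤ) : InG3 (Uk k) := by
  constructor <;> simp [Uk, show (3 : ZMod 3) = 0 from rfl]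

/-- The translations are in `Γ₁(3)`. -/
lemma inG3_Tk (k : ℤ) : InG3 (Tk k) := by constructor <;> simp [Tk]

/-- The operator of a lower unipotent is `lowLin`. -/
lemma wop_Uk (k : ℤ) : wop (E := E) (Uk k) = lowLin k :=
  (blaw_wop (inG3_Uk k)).unique (blaw_Uk k)

/-- `ℤ/E`-inverse of three. -/
noncomputable def inv3 : ZMod E := (3 : ZMod E)⁻¹

omit [NeZero E] in
/-- `inv3` is inverse to three modulo `E`. -/
lemma three_mul_inv3 : (3 : ZMod E) * inv3 = 1 := by
  have h : Nat.Coprime E 3 := Fact.out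
  have := ZMod.coe_mul_inv_eq_one 3 h.symm
  simpa [inv3] using this

/-- Dual classes as classes. -/
noncomputable def gEquiv : CP E ≃ CP E where
  toFun w := (2 * w.1 + w.2, w.1 + 2 * w.2)
  invFun p := (inv3 * (2 * p.1 - p.2), inv3 * (2 * p.2 - p.1))
  left_inv w := by
    have h := three_mul_inv3 (E := E)
    refine Prod.ext ?_ ?_
    · simp only; linear_combination w.1 * h
    · simp only; linear_combination w.2 * h
  right_inv p := by
    have h := three_mul_inv3 (E := E)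
    refine Prod.ext ?_ ?_
    · simp only; linear_combination p.1 * h
    · simp only; linear_combination p.2 * h

/-- The operator of a lower unipotent as a double sum over classes. -/
lemma lowLin_apply (k : ℤ) (φ : CP E → ℂ) (x : CP E) :
    lowLin k φ x = ((E : ℂ) ^ 2)⁻¹ * ∑ w : CP E, ∑ y : CP E,
      ee E (cpair x w - 3 * (k : ZMod E) * cnorm w - cpair y w) * φ y := by
  simp only [lowLin, LinearMap.coe_mk, AddHom.coe_mk, ftb, ftd]
  congr 1
  rw [← (gEquiv (E := E)).sum_comp]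
  refine Finset.sum_congr rfl fun w _ => ?_
  rw [Finset.mul_sum, Finset.sum_mul]
  refine Finset.sum_congr rfl fun y _ => ?_
  have e : cpair x w - 3 * (k : ZMod E) * cnorm w - cpair y w
      = ((-k : ℤ) : ZMod E) * cdual (gEquiv w) + -cdot y (gEquiv w) + cdot x (gEquiv w) := by
    simp [gEquiv, cpair, cnorm, cdual, cdot, qd, qh]
    ring
  rw [e, ee_add, ee_add]
  ring

/-- Multiplication commutes with the operators. -/
lemma wop_cmul {γ : SL(2, ℤ)} (hγ : InG3 γ) {u : CP E} (hu : cnorm u = 1) (φ : CP E → ℂ) :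
    wop γ (φ ∘ cmul u) = wop γ φ ∘ cmul u := by
  refine (gamma1_three_induction (P := fun γ => InG3 γ ∧
    ∀ φ : CP E → ℂ, wop γ (φ ∘ cmul u) = wop γ φ ∘ cmul u) ?_ ?_ ?_ _ γ le_rfl hγ.1 hγ.2).2 φ
  · intro k
    refine ⟨inG3_Tk k, fun φ => ?_⟩
    rw [wop_gamma0 (inG3_Tk k) (by simp [Tk])]
    funext x
    have e : (Tk k 1 1 : ZMod E) = 1 := by simp [Tk]
    simp only [diagLin_apply, Function.comp_apply, e, one_mul, Prod.mk.eta, cnorm_cmul, hu]
  · intro k
    refine ⟨inG3_Uk k, fun φ => ?_⟩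
    rw [wop_Uk]
    funext x
    rw [Function.comp_apply, lowLin_apply, lowLin_apply]
    congr 1
    conv_rhs => rw [← (cmulEquiv u hu).sum_comp]
    refine Finset.sum_congr rfl fun w _ => ?_
    conv_rhs => rw [← (cmulEquiv u hu).sum_comp]
    refine Finset.sum_congr rfl fun y _ => ?_
    simp only [cmulEquiv, Equiv.coe_fn_mk, cpair_cmul, cnorm_cmul, hu, one_mul, Function.comp_apply]
  · rintro a b ⟨ha, ha'⟩ ⟨hb, hb'⟩
    refine ⟨ha.mul hb, fun φ => ?_⟩
    rw [wop_mul ha hb, LinearMap.comp_apply, LinearMap.comp_apply, ha', hb']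

variable (E) in
/-- The Gauss sum of the norm form. -/
noncomputable def gauss : ℂ := ∑ w : CP E, ee E (-cnorm w)

variable (E) in
/-- The standard element reducing to the inversion modulo `E`. -/
noncomputable def sElt : SL(2, ℤ) :=
  Tk (-1) * Uk ((inv3 : ZMod E).val : ℤ) * Tk (-1)

omit [NeZero E] [Fact (E.Coprime 3)] in
/-- The standard element is in `Γ₁(3)`. -/
lemma inG3_sElt : InG3 (sElt E) := ((inG3_Tk _).mul (inG3_Uk _)).mul (inG3_Tk _)

/-- The standard element is `!![0, -1; 1, 0]` modulo `E`. -/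
lemma sElt_val : ((sElt E 0 0 : ZMod E) = 0) ∧ ((sElt E 0 1 : ZMod E) = -1) ∧
    ((sElt E 1 0 : ZMod E) = 1) ∧ ((sElt E 1 1 : ZMod E) = 0) := by
  have h := three_mul_inv3 (E := E)
  refine ⟨?_, ?_, ?_, ?_⟩ <;>
    simp [sElt, SpecialLinearGroup.coe_mul, Tk, Uk, h]

/-- The standard inversion element acts by a finite Fourier transform. -/
lemma wop_sElt (φ : CP E → ℂ) (x : CP E) :
    wop (sElt E) φ x = gauss E / (E : ℂ) ^ 2 * ∑ y : CP E, ee E (-cpair x y) * φ y := by
  rw [sElt, wop_mul ((inG3_Tk _).mul (inG3_Uk _)) (inG3_Tk _), wop_mul (inG3_Tk _) (inG3_Uk _),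
    wop_Uk, wop_gamma0 (inG3_Tk _) (by simp [Tk])]
  simp only [LinearMap.comp_apply, diagLin_apply]
  have e1 : (Tk (-1) 1 1 : ZMod E) = 1 := by simp [Tk]
  have e2 : (Tk (-1) 0 1 : ZMod E) = -1 := by simp [Tk]
  simp only [e1, e2, one_mul, neg_one_mul, Prod.mk.eta, lowLin_apply, diagLin_apply]
  have h3 : (3 : ZMod E) * ((((inv3 : ZMod E).val : ℤ)) : ZMod E) = 1 := by
    push_cast
    rw [ZMod.natCast_zmod_val, three_mul_inv3]
  rw [Finset.sum_comm]
  simp only [Finset.mul_sum, h3, one_mul]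
  refine Finset.sum_congr rfl fun y _ => ?_
  rw [gauss]
  conv_rhs => rw [← Equiv.sum_comp (Equiv.addRight (y - x)), Finset.sum_div, Finset.sum_mul]
  refine Finset.sum_congr rfl fun w _ => ?_
  rw [Equiv.coe_addRight]
  have e : -cnorm x + (cpair x w - cnorm w - cpair y w + -cnorm y)
      = -cnorm (w + (y - x)) + -cpair x y := by
    simp [cpair, cnorm, qh]
    ring
  have ee' := congrArg (ee E) e
  simp only [ee_add] at ee'
  linear_combination (φ y / (E : ℂ) ^ 2) * ee'

/-- Elements `≡ (0 b; c 0)` modulo `E` act by the Fourier transform with kernel `e (b ⟨x, y⟩)`,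
scaled by the Gauss sum. -/
lemma wop_antidiag {γ : SL(2, ℤ)} (hγ : InG3 γ) (h00 : (γ 0 0 : ZMod E) = 0)
    (h11 : (γ 1 1 : ZMod E) = 0) (φ : CP E → ℂ) (x : CP E) :
    wop γ φ x = gauss E / (E : ℂ) ^ 2 *
      ∑ y : CP E, ee E ((γ 0 1 : ZMod E) * cpair x y) * φ y := by
  set s := sElt E with hs
  obtain ⟨s00, s01, s10, s11⟩ := sElt_val (E := E)
  -- write `γ = δ s` with `δ` diagonal modulo `E`
  set δ := γ * s⁻¹ with hδ
  have hsi : InG3 s⁻¹ := by
    obtain ⟨a1, a2⟩ := inG3_sElt (E := E)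
    constructor
    · rw [SpecialLinearGroup.coe_inv, Matrix.adjugate_fin_two]
      simp
      have h := congrArg (fun z : ℤ => (z : ZMod 3)) (sElt E).det_coe
      rw [Matrix.det_fin_two] at h
      push_cast at h
      rw [a1, a2, one_mul, mul_zero, sub_zero] at h
      exact h
    · rw [SpecialLinearGroup.coe_inv, Matrix.adjugate_fin_two]
      simp [a2, hs]
  have hde : ∀ i j, (δ i j : ZMod E) = (γ i 0 : ZMod E) * ((s⁻¹ : SL(2, ℤ)) 0 j : ZMod E)
      + (γ i 1 : ZMod E) * ((s⁻¹ : SL(2, ℤ)) 1 j : ZMod E) := fun i j => by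
    rw [hδ, SpecialLinearGroup.coe_mul, Matrix.mul_apply, Fin.sum_univ_two]; push_cast; ring
  have hd10 : (δ 1 0 : ZMod E) = 0 := by
    rw [hde, SpecialLinearGroup.coe_inv, Matrix.adjugate_fin_two]; simp [hs, h11, s11]
  have hd01 : (δ 0 1 : ZMod E) = 0 := by
    rw [hde, SpecialLinearGroup.coe_inv, Matrix.adjugate_fin_two]; simp [hs, h00, s00]
  have hd11 : (δ 1 1 : ZMod E) = (γ 1 0 : ZMod E) := by
    rw [hde, SpecialLinearGroup.coe_inv, Matrix.adjugate_fin_two]; simp [hs, h11, s01]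
  have hprod : γ = δ * s := by rw [hδ, inv_mul_cancel_right]
  have hdet : -((γ 0 1 : ZMod E) * (γ 1 0 : ZMod E)) = 1 := by
    have h := congrArg (fun z : ℤ => (z : ZMod E)) γ.det_coe
    rw [Matrix.det_fin_two] at h
    push_cast at h
    rw [h00, zero_mul, zero_sub] at h
    exact h
  conv_lhs => rw [hprod, wop_mul (hγ.mul hsi) inG3_sElt, LinearMap.comp_apply, hs, wop_sElt,
    wop_gamma0 (hγ.mul hsi) hd10]
  congr 1
  simp only [diagLin_apply, ← hδ, hd01, hd11, mul_zero, zero_mul, ee_zero, one_mul]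
  -- scale the summation variable
  let ce : CP E ≃ CP E :=
    { toFun := fun y => ((γ 1 0 : ZMod E) * y.1, (γ 1 0 : ZMod E) * y.2)
      invFun := fun y => (-(γ 0 1 : ZMod E) * y.1, -(γ 0 1 : ZMod E) * y.2)
      left_inv := fun y => by
        refine Prod.ext ?_ ?_
        · simp only; linear_combination y.1 * hdet
        · simp only; linear_combination y.2 * hdet
      right_inv := fun y => by
        refine Prod.ext ?_ ?_
        · simp only; linear_combination y.1 * hdet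
        · simp only; linear_combination y.2 * hdet }
  conv_rhs => rw [← ce.sum_comp]
  refine Finset.sum_congr rfl fun y _ => ?_
  congr 2
  simp only [ce, Equiv.coe_fn_mk, cpair]
  linear_combination (2 * x.1 * y.1 + x.1 * y.2 + x.2 * y.1 + 2 * x.2 * y.2) * hdet

/-- The normalised Gauss sum is a sign. -/
lemma gauss_sq : (gauss E / (E : ℂ)) ^ 2 = 1 := by
  obtain ⟨s00, s01, s10, s11⟩ := sElt_val (E := E)
  set q := sElt E * sElt E with hq
  have hqe : ∀ i j, (q i j : ZMod E) = (sElt E i 0 : ZMod E) * (sElt E 0 j : ZMod E)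
      + (sElt E i 1 : ZMod E) * (sElt E 1 j : ZMod E) := fun i j => by
    rw [hq, SpecialLinearGroup.coe_mul, Matrix.mul_apply, Fin.sum_univ_two]; push_cast; ring
  have h1 := congrFun (LinearMap.congr_fun (wop_gamma0 (E := E) (inG3_sElt.mul inG3_sElt)
    (by rw [← hq, hqe, s10, s00, s11]; ring)) (Pi.single (0 : CP E) 1)) 0
  rw [wop_mul inG3_sElt inG3_sElt, LinearMap.comp_apply, wop_sElt, diagLin_apply] at h1
  have e : ∀ y : CP E, ee E (-cpair 0 y) * wop (sElt E) (Pi.single (0 : CP E) 1) y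
      = gauss E / (E : ℂ) ^ 2 := fun y => by
    rw [wop_sElt, Finset.sum_eq_single 0 (fun z _ hz => by simp [hz]) (by simp)]
    simp [cpair, ee_zero]
  simp only [e, Finset.sum_const, Finset.card_univ, Fintype.card_prod, ZMod.card, nsmul_eq_mul,
    Prod.fst_zero, Prod.snd_zero, mul_zero] at h1
  simp [cnorm, qh, ee_zero, show ((0 : ZMod E), (0 : ZMod E)) = (0 : CP E) from rfl] at h1
  have hE : (E : ℂ) ≠ 0 := by exact_mod_cast NeZero.ne E
  field_simp at h1 ⊢
  linear_combination h1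

end Fermat.LT3
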